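/-
S16 library, package SwD-alg (helper7): the purely algebraic half of the Swinnerton-Dyer
theorem on level-one modular forms mod `ℓ ≥ 5`.

Abstract setting: `κ` a field of characteristic `ℓ ≥ 5`; `Q R P : κ⟦X⟧` formal power series with
constant terms `1`, satisfying the formal Ramanujan equations
`12 θQ = 4PQ - 4R`, `12 θR = 6PR - 6Q²`, `12 θP = P² - Q` (`θ = q d/dq`), with `Q³ - R²` of order
exactly `1`; `A ∈ κ[X,Y]` isobaric of weight `ℓ - 1` (weights `4, 6`) with `A(Q,R) = 1`.

Main result `swd_const`: an isobaric `F` of weight `k` with `F(Q,R) = c ≠ 0` constant has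
`(ℓ - 1) ∣ k`.
-/
import Mathlib

set_option autoImplicit false

noncomputable section

open MvPolynomial

namespace Fermat.Agent.S16lib.SwD

variable {κ : Type*} [Field κ]

/-- the weights of the two variables `X = E₄`, `Y = E₆`. -/
def wt : Fin 2 → ℕ := ![4, 6]

/-- isobaric of weight `k`. -/
abbrev Iso (F : MvPolynomial (Fin 2) κ) (k : ℕ) : Prop := F.IsWeightedHomogeneous wt k

/-- the variable `X` (weight 4). -/
abbrev XX : MvPolynomial (Fin 2) κ := X 0
/-- the variable `Y` (weight 6). -/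
abbrev YY : MvPolynomial (Fin 2) κ := X 1

theorem weight_eq (d : Fin 2 →₀ ℕ) : Finsupp.weight wt d = 4 * d 0 + 6 * d 1 := by
  rw [Finsupp.weight_apply, Finsupp.sum_fintype _ _ (fun i => by simp)]
  simp [wt, Fin.sum_univ_two, mul_comm]

theorem iso_XX : Iso (XX : MvPolynomial (Fin 2) κ) 4 := isWeightedHomogeneous_X κ wt 0
theorem iso_YY : Iso (YY : MvPolynomial (Fin 2) κ) 6 := isWeightedHomogeneous_X κ wt 1

/-- The Serre-type derivation `∂ = -4Y ∂_X - 6X² ∂_Y` (raises the weight by 2). -/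
def dd : Derivation κ (MvPolynomial (Fin 2) κ) (MvPolynomial (Fin 2) κ) :=
  mkDerivation κ ![-4 * YY, -6 * XX ^ 2]

/-- The Euler derivation `4X ∂_X + 6Y ∂_Y`. -/
def ee : Derivation κ (MvPolynomial (Fin 2) κ) (MvPolynomial (Fin 2) κ) :=
  mkDerivation κ ![4 * XX, 6 * YY]

@[simp] theorem dd_XX : dd (XX : MvPolynomial (Fin 2) κ) = -4 * YY := by
  simp [dd, mkDerivation_X]
@[simp] theorem dd_YY : dd (YY : MvPolynomial (Fin 2) κ) = -6 * XX ^ 2 := by
  simp [dd, mkDerivation_X]
@[simp] theorem ee_XX : ee (XX : MvPolynomial (Fin 2) κ) = 4 * XX := by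
  simp [ee, mkDerivation_X]
@[simp] theorem ee_YY : ee (YY : MvPolynomial (Fin 2) κ) = 6 * YY := by
  simp [ee, mkDerivation_X]

/-- every derivation of `κ[X,Y]` is `∂_X(·) D(X) + ∂_Y(·) D(Y)`. -/
theorem derivation_eq (D : Derivation κ (MvPolynomial (Fin 2) κ) (MvPolynomial (Fin 2) κ))
    (F : MvPolynomial (Fin 2) κ) :
    D F = pderiv 0 F * D XX + pderiv 1 F * D YY := by
  induction F using MvPolynomial.induction_on with
  | C a => simp
  | add p q hp hq => rw [map_add, map_add, map_add, hp, hq]; ring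
  | mul_X p i hp =>
    rw [Derivation.leibniz, Derivation.leibniz, Derivation.leibniz, hp]
    fin_cases i
    · simp only [Fin.zero_eta, smul_eq_mul, pderiv_X_self, Fin.isValue]
      rw [pderiv_X_of_ne (by decide)]
      ring
    · simp only [Fin.mk_one, smul_eq_mul, pderiv_X_self, Fin.isValue]
      rw [pderiv_X_of_ne (by decide)]
      ring

theorem dd_eq (F : MvPolynomial (Fin 2) κ) :
    dd F = pderiv 0 F * (-4 * YY) + pderiv 1 F * (-6 * XX ^ 2) := by
  rw [derivation_eq dd F, dd_XX, dd_YY]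

theorem ee_eq (F : MvPolynomial (Fin 2) κ) :
    ee F = pderiv 0 F * (4 * XX) + pderiv 1 F * (6 * YY) := by
  rw [derivation_eq ee F, ee_XX, ee_YY]

/-! ### weights and derivatives -/

theorem iso_pderiv_zero {F : MvPolynomial (Fin 2) κ} {k : ℕ} (hF : Iso F k) :
    Iso (pderiv 0 F) (k - 4) := by
  induction hF using IsWeightedHomogeneous.induction_on with
  | zero => rw [map_zero]; exact isWeightedHomogeneous_zero κ wt _
  | add p q hp hq ihp ihq => rw [map_add]; exact ihp.add ihq
  | monomial d r hr =>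
    rw [pderiv_monomial]
    by_cases h0 : d 0 = 0
    · rw [h0, Nat.cast_zero, mul_zero, map_zero]; exact isWeightedHomogeneous_zero κ wt _
    · apply isWeightedHomogeneous_monomial
      rw [weight_eq] at hr ⊢
      simp only [Finsupp.coe_tsub, Pi.sub_apply, Finsupp.single_eq_same, Fin.isValue]
      rw [Finsupp.single_eq_of_ne (by decide)]
      omega

theorem iso_pderiv_one {F : MvPolynomial (Fin 2) κ} {k : ℕ} (hF : Iso F k) :
    Iso (pderiv 1 F) (k - 6) := by
  induction hF using IsWeightedHomogeneous.induction_on with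
  | zero => rw [map_zero]; exact isWeightedHomogeneous_zero κ wt _
  | add p q hp hq ihp ihq => rw [map_add]; exact ihp.add ihq
  | monomial d r hr =>
    rw [pderiv_monomial]
    by_cases h0 : d 1 = 0
    · rw [h0, Nat.cast_zero, mul_zero, map_zero]; exact isWeightedHomogeneous_zero κ wt _
    · apply isWeightedHomogeneous_monomial
      rw [weight_eq] at hr ⊢
      simp only [Finsupp.coe_tsub, Pi.sub_apply, Finsupp.single_eq_same, Fin.isValue]
      rw [Finsupp.single_eq_of_ne (by decide)]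
      omega

theorem iso_C_mul {F : MvPolynomial (Fin 2) κ} {k : ℕ} (hF : Iso F k) (c : κ) :
    Iso (C c * F) k := IsWeightedHomogeneous.C_mul hF c

theorem iso_neg_four_YY : Iso (-4 * YY : MvPolynomial (Fin 2) κ) 6 := by
  have : (-4 * YY : MvPolynomial (Fin 2) κ) = C (-4) * YY := by
    simp [map_neg, map_ofNat]
  rw [this]; exact iso_C_mul iso_YY _

theorem iso_neg_six_XX_sq : Iso (-6 * XX ^ 2 : MvPolynomial (Fin 2) κ) 8 := by
  have : (-6 * XX ^ 2 : MvPolynomial (Fin 2) κ) = C (-6) * XX ^ 2 := by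
    simp [map_neg, map_ofNat]
  rw [this]; exact iso_C_mul (iso_XX.pow 2) _

/-- `∂` raises the weight by `2`. -/
theorem iso_dd {F : MvPolynomial (Fin 2) κ} {k : ℕ} (hF : Iso F k) : Iso (dd F) (k + 2) := by
  induction hF using IsWeightedHomogeneous.induction_on with
  | zero => rw [map_zero]; exact isWeightedHomogeneous_zero κ wt _
  | add p q hp hq ihp ihq => rw [map_add]; exact ihp.add ihq
  | monomial d r hr =>
    have hm : Iso (monomial d r) k := isWeightedHomogeneous_monomial wt d r hr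
    rw [dd_eq]
    rw [weight_eq] at hr
    refine IsWeightedHomogeneous.add ?_ ?_
    · by_cases h0 : d 0 = 0
      · rw [pderiv_monomial, h0, Nat.cast_zero, mul_zero, map_zero, zero_mul]
        exact isWeightedHomogeneous_zero κ wt _
      · have h1 := (iso_pderiv_zero hm).mul (iso_neg_four_YY (κ := κ))
        have : k - 4 + 6 = k + 2 := by omega
        rwa [this] at h1
    · by_cases h0 : d 1 = 0
      · rw [pderiv_monomial, h0, Nat.cast_zero, mul_zero, map_zero, zero_mul]
        exact isWeightedHomogeneous_zero κ wt _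
      · have h1 := (iso_pderiv_one hm).mul (iso_neg_six_XX_sq (κ := κ))
        have : k - 6 + 8 = k + 2 := by omega
        rwa [this] at h1

/-- Euler's identity. -/
theorem ee_iso {F : MvPolynomial (Fin 2) κ} {k : ℕ} (hF : Iso F k) : ee F = (k : κ) • F := by
  induction hF using IsWeightedHomogeneous.induction_on with
  | zero => simp
  | add p q hp hq ihp ihq => rw [map_add, ihp, ihq, smul_add]
  | monomial d r hr =>
    rw [weight_eq] at hr
    rw [ee_eq, pderiv_monomial, pderiv_monomial]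
    have h0 : monomial (d - Finsupp.single 0 1) (r * (d 0 : κ)) * (4 * XX) =
        ((4 * d 0 : ℕ) : κ) • monomial d r := by
      by_cases h : d 0 = 0
      · simp [h]
      · have hd : d - Finsupp.single 0 1 + Finsupp.single 0 1 = d := by
          apply tsub_add_cancel_of_le
          rw [Finsupp.single_le_iff]
          omega
        have hX : (XX : MvPolynomial (Fin 2) κ) = monomial (Finsupp.single 0 1) 1 := rfl
        rw [hX, ← mul_assoc, mul_comm _ (4 : MvPolynomial (Fin 2) κ), mul_assoc, monomial_mul, hd,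
          mul_one, smul_monomial, smul_eq_mul]
        have : (4 : MvPolynomial (Fin 2) κ) = C 4 := by simp [map_ofNat]
        rw [this, C_mul_monomial]
        congr 1
        push_cast; ring
    have h1 : monomial (d - Finsupp.single 1 1) (r * (d 1 : κ)) * (6 * YY) =
        ((6 * d 1 : ℕ) : κ) • monomial d r := by
      by_cases h : d 1 = 0
      · simp [h]
      · have hd : d - Finsupp.single 1 1 + Finsupp.single 1 1 = d := by
          apply tsub_add_cancel_of_le
          rw [Finsupp.single_le_iff]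
          omega
        have hY : (YY : MvPolynomial (Fin 2) κ) = monomial (Finsupp.single 1 1) 1 := rfl
        rw [hY, ← mul_assoc, mul_comm _ (6 : MvPolynomial (Fin 2) κ), mul_assoc, monomial_mul, hd,
          mul_one, smul_monomial, smul_eq_mul]
        have : (6 : MvPolynomial (Fin 2) κ) = C 6 := by simp [map_ofNat]
        rw [this, C_mul_monomial]
        congr 1
        push_cast; ring
    rw [h0, h1, ← add_smul, ← Nat.cast_add, hr]

/-! ### small weights -/

theorem iso_zero_eq_C {F : MvPolynomial (Fin 2) κ} (hF : Iso F 0) : F = C (coeff 0 F) := by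
  ext d
  rw [coeff_C]
  by_cases hd : 0 = d
  · rw [if_pos hd, hd]
  · rw [if_neg hd]
    apply hF.coeff_eq_zero
    rw [weight_eq]
    intro h
    apply hd
    ext i
    fin_cases i
    · simp only [Fin.zero_eta, Finsupp.coe_zero, Pi.zero_apply]; omega
    · simp only [Fin.mk_one, Finsupp.coe_zero, Pi.zero_apply]; omega

theorem iso_two_eq_zero {F : MvPolynomial (Fin 2) κ} (hF : Iso F 2) : F = 0 := by
  apply hF.eq_zero_of_no_monomials
  intro d hd
  rw [weight_eq] at hd
  omega

theorem iso_lt_four_eq_zero {F : MvPolynomial (Fin 2) κ} {k : ℕ} (hF : Iso F k) (h0 : 0 < k)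
    (h4 : k < 4) : F = 0 := by
  apply hF.eq_zero_of_no_monomials
  intro d hd
  rw [weight_eq] at hd
  omega

theorem iso_unique {F : MvPolynomial (Fin 2) κ} {i j : ℕ} (hi : Iso F i) (hj : Iso F j)
    (hF : F ≠ 0) : i = j := IsWeightedHomogeneous.inj_right hF hi hj

/-! ### the grading homomorphism; factors of isobaric polynomials are isobaric -/

/-- the grading homomorphism `X_i ↦ X_i T^(wt i)`. -/
def gr : MvPolynomial (Fin 2) κ →ₐ[κ] Polynomial (MvPolynomial (Fin 2) κ) :=
  aeval (fun i => Polynomial.C (X i) * Polynomial.X ^ wt i)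

theorem gr_monomial (d : Fin 2 →₀ ℕ) (r : κ) :
    gr (monomial d r) = Polynomial.C (monomial d r) * Polynomial.X ^ (Finsupp.weight wt d) := by
  rw [gr, aeval_monomial, weight_eq, monomial_eq, Finsupp.prod_fintype _ _ (fun i => by simp),
    Finsupp.prod_fintype _ _ (fun i => by simp), Fin.prod_univ_two, Fin.prod_univ_two]
  simp only [wt, Matrix.cons_val_zero, Matrix.cons_val_one, Polynomial.algebraMap_apply,
    MvPolynomial.algebraMap_eq, map_mul, map_pow, mul_pow, ← pow_mul, pow_add]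
  ring

theorem gr_iso {F : MvPolynomial (Fin 2) κ} {k : ℕ} (hF : Iso F k) :
    gr F = Polynomial.C F * Polynomial.X ^ k := by
  induction hF using IsWeightedHomogeneous.induction_on with
  | zero => simp
  | add p q hp hq ihp ihq => rw [map_add, ihp, ihq, map_add, add_mul]
  | monomial d r hr => rw [gr_monomial, hr]

theorem coeff_gr (F : MvPolynomial (Fin 2) κ) (n : ℕ) :
    (gr F).coeff n = weightedHomogeneousComponent wt n F := by
  induction F using MvPolynomial.induction_on' with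
  | monomial d r =>
    rw [gr_monomial, Polynomial.coeff_C_mul_X_pow,
      weightedHomogeneousComponent_of_mem (isWeightedHomogeneous_monomial wt d r rfl)]
  | add p q hp hq => rw [map_add, Polynomial.coeff_add, hp, hq, map_add]

theorem iso_of_gr_eq {F G : MvPolynomial (Fin 2) κ} {i : ℕ}
    (h : gr F = Polynomial.C G * Polynomial.X ^ i) : Iso F i := by
  intro d hd
  by_contra hne
  have h1 : coeff d (weightedHomogeneousComponent wt (Finsupp.weight wt d) F) = coeff d F := by
    rw [coeff_weightedHomogeneousComponent, if_pos rfl]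
  rw [← coeff_gr, h, Polynomial.coeff_C_mul_X_pow, if_neg hne, coeff_zero] at h1
  exact hd h1.symm

theorem eval_one_gr (F : MvPolynomial (Fin 2) κ) : (gr F).eval 1 = F := by
  have h : ((Polynomial.aeval (1 : MvPolynomial (Fin 2) κ)).restrictScalars κ).comp gr =
      AlgHom.id κ _ := by
    apply MvPolynomial.algHom_ext
    intro i
    simp [gr]
  have := congrArg (fun f => f F) h
  simpa [Polynomial.aeval_def] using this

theorem eq_C_mul_X_pow_of_mul {S : Type*} [CommRing S] [IsDomain S] {p q : Polynomial S} {a : S}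
    {k : ℕ} (ha : a ≠ 0) (h : p * q = Polynomial.C a * Polynomial.X ^ k) :
    p = Polynomial.C p.leadingCoeff * Polynomial.X ^ p.natDegree := by
  have hpq : p * q ≠ 0 := by
    rw [h]; intro h0
    have := congrArg (fun f => Polynomial.coeff f k) h0
    simp at this
    exact ha this
  have hp : p ≠ 0 := left_ne_zero_of_mul hpq
  have hq : q ≠ 0 := right_ne_zero_of_mul hpq
  have h1 : p.natDegree + q.natDegree = k := by
    rw [← Polynomial.natDegree_mul hp hq, h, Polynomial.natDegree_C_mul_X_pow k a ha]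
  have h2 : p.natTrailingDegree + q.natTrailingDegree = k := by
    rw [← Polynomial.natTrailingDegree_mul hp hq, h, Polynomial.C_mul_X_pow_eq_monomial,
      Polynomial.natTrailingDegree_monomial ha]
  have h3 := Polynomial.natTrailingDegree_le_natDegree (p := p)
  have h4 := Polynomial.natTrailingDegree_le_natDegree (p := q)
  have h5 : p.natTrailingDegree = p.natDegree := by omega
  ext n
  rw [Polynomial.coeff_C_mul_X_pow]
  split_ifs with hn
  · rw [hn]; rfl
  · rcases lt_or_gt_of_ne hn with hlt | hgt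
    · exact Polynomial.coeff_eq_zero_of_lt_natTrailingDegree (by omega)
    · exact Polynomial.coeff_eq_zero_of_natDegree_lt hgt

/-- factors of a nonzero isobaric polynomial are isobaric. -/
theorem iso_of_mul {F G : MvPolynomial (Fin 2) κ} {k : ℕ} (h : Iso (F * G) k) (hF : F ≠ 0)
    (hG : G ≠ 0) : ∃ i j, Iso F i ∧ Iso G j ∧ i + j = k := by
  have hFG : F * G ≠ 0 := mul_ne_zero hF hG
  have h1 : gr F * gr G = Polynomial.C (F * G) * Polynomial.X ^ k := by
    rw [← map_mul, gr_iso h]
  have h2 : gr G * gr F = Polynomial.C (F * G) * Polynomial.X ^ k := by rw [mul_comm, h1]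
  have hi := iso_of_gr_eq (eq_C_mul_X_pow_of_mul hFG h1)
  have hj := iso_of_gr_eq (eq_C_mul_X_pow_of_mul hFG h2)
  exact ⟨_, _, hi, hj, iso_unique (hi.mul hj) h hFG⟩

theorem iso_of_mul_left {F G : MvPolynomial (Fin 2) κ} {k : ℕ} (h : Iso (F * G) k) (hF : F ≠ 0)
    (hG : G ≠ 0) : ∃ i, Iso F i ∧ i ≤ k := by
  obtain ⟨i, j, hi, _, hij⟩ := iso_of_mul h hF hG
  exact ⟨i, hi, by omega⟩

/-! ### the cuspidal cubic `X³ - Y²` -/

/-- `X³ - Y²` (the discriminant up to the factor `1728`). -/
def Dl : MvPolynomial (Fin 2) κ := XX ^ 3 - YY ^ 2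

theorem iso_Dl : Iso (Dl : MvPolynomial (Fin 2) κ) 12 :=
  IsWeightedHomogeneous.sub (iso_XX.pow 3) (iso_YY.pow 2)

/-- the parametrisation `t ↦ (t², t³)` of the cuspidal cubic. -/
def cusp : MvPolynomial (Fin 2) κ →ₐ[κ] Polynomial κ :=
  aeval ![Polynomial.X ^ 2, Polynomial.X ^ 3]

@[simp] theorem cusp_XX : cusp (XX : MvPolynomial (Fin 2) κ) = Polynomial.X ^ 2 := by
  simp [cusp]
@[simp] theorem cusp_YY : cusp (YY : MvPolynomial (Fin 2) κ) = Polynomial.X ^ 3 := by
  simp [cusp]

theorem cusp_Dl : cusp (Dl : MvPolynomial (Fin 2) κ) = 0 := by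
  rw [Dl, map_sub, map_pow, map_pow, cusp_XX, cusp_YY]; ring

/-- division with remainder by `X³ - Y²`, viewed as a monic quadratic polynomial in `Y`. -/
theorem exists_div_Dl (F : MvPolynomial (Fin 2) κ) :
    ∃ (G : MvPolynomial (Fin 2) κ) (A B : Polynomial κ),
      F = Dl * G + Polynomial.aeval XX A + Polynomial.aeval XX B * YY := by
  induction F using MvPolynomial.induction_on with
  | C a => exact ⟨0, Polynomial.C a, 0, by simp⟩
  | add p q hp hq =>
    obtain ⟨G1, A1, B1, h1⟩ := hp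
    obtain ⟨G2, A2, B2, h2⟩ := hq
    refine ⟨G1 + G2, A1 + A2, B1 + B2, ?_⟩
    rw [h1, h2, map_add, map_add]; ring
  | mul_X p i hp =>
    obtain ⟨G, A, B, h⟩ := hp
    fin_cases i
    · refine ⟨G * XX, A * Polynomial.X, B * Polynomial.X, ?_⟩
      rw [h, map_mul, map_mul, Polynomial.aeval_X]
      simp only [Fin.zero_eta]
      ring
    · refine ⟨G * YY - Polynomial.aeval XX B, B * Polynomial.X ^ 3, A, ?_⟩
      rw [h, map_mul, map_pow, Polynomial.aeval_X, Dl]
      simp only [Fin.mk_one]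
      ring

theorem cusp_aeval_XX (A : Polynomial κ) :
    cusp (Polynomial.aeval (XX : MvPolynomial (Fin 2) κ) A) = Polynomial.expand κ 2 A := by
  rw [← Polynomial.aeval_algHom_apply, cusp_XX, Polynomial.aeval_def, Polynomial.coe_expand]
  rfl

theorem parity_aux {A B : Polynomial κ}
    (h : Polynomial.expand κ 2 A + Polynomial.expand κ 2 B * Polynomial.X ^ 3 = 0) :
    A = 0 ∧ B = 0 := by
  constructor
  · ext n
    have := congrArg (fun f => Polynomial.coeff f (2 * n)) h
    simp only [Polynomial.coeff_add, Polynomial.coeff_zero,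
      Polynomial.coeff_mul_X_pow', Polynomial.coeff_expand two_pos] at this
    have h3 : 2 ∣ 2 * n := ⟨n, rfl⟩
    rw [if_pos h3, Nat.mul_div_cancel_left n two_pos] at this
    rw [Polynomial.coeff_zero, ← this]
    split_ifs with h1 h2
    · omega
    · simp
    · simp
  · ext n
    have := congrArg (fun f => Polynomial.coeff f (2 * n + 3)) h
    simp only [Polynomial.coeff_add, Polynomial.coeff_zero,
      Polynomial.coeff_mul_X_pow, Polynomial.coeff_expand two_pos] at this
    have h2 : ¬ 2 ∣ 2 * n + 3 := by omega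
    have h3 : 2 ∣ 2 * n := ⟨n, rfl⟩
    rw [if_neg h2, if_pos h3, zero_add, Nat.mul_div_cancel_left n two_pos] at this
    rw [Polynomial.coeff_zero, this]

/-- the kernel of the cusp parametrisation is generated by `X³ - Y²`. -/
theorem dvd_of_cusp_eq_zero {F : MvPolynomial (Fin 2) κ} (h : cusp F = 0) : Dl ∣ F := by
  obtain ⟨G, A, B, hF⟩ := exists_div_Dl F
  have h1 : cusp F = Polynomial.expand κ 2 A + Polynomial.expand κ 2 B * Polynomial.X ^ 3 := by
    rw [hF, map_add, map_add, map_mul, map_mul, cusp_Dl, cusp_aeval_XX, cusp_aeval_XX, cusp_YY]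
    ring
  rw [h] at h1
  obtain ⟨hA, hB⟩ := parity_aux h1.symm
  rw [hA, hB] at hF
  rw [hF]
  simp

theorem Dl_ne_zero : (Dl : MvPolynomial (Fin 2) κ) ≠ 0 := by
  intro h
  have := congrArg (aeval (![1, 0] : Fin 2 → κ)) h
  simp [Dl] at this

theorem prime_Dl : Prime (Dl : MvPolynomial (Fin 2) κ) := by
  refine ⟨Dl_ne_zero, ?_, ?_⟩
  · intro hu
    have := hu.map cusp
    rw [cusp_Dl] at this
    exact not_isUnit_zero this
  · intro a b hab
    obtain ⟨c, hc⟩ := hab
    have : cusp a * cusp b = 0 := by rw [← map_mul, hc, map_mul, cusp_Dl, zero_mul]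
    rcases mul_eq_zero.mp this with h | h
    · exact Or.inl (dvd_of_cusp_eq_zero h)
    · exact Or.inr (dvd_of_cusp_eq_zero h)

/-- value at the cusp `(1,1)`. -/
def ev11 : MvPolynomial (Fin 2) κ →ₐ[κ] κ := aeval (![1, 1] : Fin 2 → κ)

theorem cusp_iso {F : MvPolynomial (Fin 2) κ} {k : ℕ} (hF : Iso F k) :
    cusp F = Polynomial.C (ev11 F) * Polynomial.X ^ (k / 2) := by
  induction hF using IsWeightedHomogeneous.induction_on with
  | zero => simp
  | add p q hp hq ihp ihq => rw [map_add, ihp, ihq, map_add, map_add, add_mul]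
  | monomial d r hr =>
    rw [weight_eq] at hr
    have hk : k / 2 = 2 * d 0 + 3 * d 1 := by omega
    rw [cusp, ev11, aeval_monomial, aeval_monomial, hk,
      Finsupp.prod_fintype _ _ (fun i => by simp), Finsupp.prod_fintype _ _ (fun i => by simp),
      Fin.prod_univ_two, Fin.prod_univ_two]
    simp only [Matrix.cons_val_zero, Matrix.cons_val_one, one_pow, mul_one,
      Polynomial.algebraMap_apply, Algebra.algebraMap_self, RingHom.id_apply, ← pow_mul, pow_add]

theorem dvd_of_iso_of_ev11 {F : MvPolynomial (Fin 2) κ} {k : ℕ} (hF : Iso F k)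
    (h : ev11 F = 0) : Dl ∣ F := by
  apply dvd_of_cusp_eq_zero
  rw [cusp_iso hF, h, map_zero, zero_mul]

/-! ### second derivative of `C^(n+2) U` -/

theorem dd_dd_pow_mul (C U : MvPolynomial (Fin 2) κ) (n : ℕ) :
    dd (dd (C ^ (n + 2) * U)) =
      C ^ n * (((n + 2 : ℕ) : MvPolynomial (Fin 2) κ) * ((n + 1 : ℕ) : MvPolynomial (Fin 2) κ)
          * (U * dd C ^ 2) +
        C * (C * dd (dd U) + 2 * ((n + 2 : ℕ) : MvPolynomial (Fin 2) κ) * dd U * dd C +
          ((n + 2 : ℕ) : MvPolynomial (Fin 2) κ) * U * dd (dd C))) := by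
  have h1 : dd (C ^ (n + 2)) = ((n + 2 : ℕ) : MvPolynomial (Fin 2) κ) * (C ^ (n + 1) * dd C) := by
    rw [Derivation.leibniz_pow, nsmul_eq_mul, smul_eq_mul]; rfl
  have h2 : dd (C ^ (n + 1)) = ((n + 1 : ℕ) : MvPolynomial (Fin 2) κ) * (C ^ n * dd C) := by
    rw [Derivation.leibniz_pow, nsmul_eq_mul, smul_eq_mul]; rfl
  rw [Derivation.leibniz, h1, map_add, smul_eq_mul, smul_eq_mul, Derivation.leibniz,
    Derivation.leibniz, Derivation.leibniz, Derivation.leibniz, h1, h2, Derivation.map_natCast]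
  simp only [smul_eq_mul]
  ring

/-! ### formal Ramanujan data -/

/-- `θ = q d/dq` on formal power series. -/
def theta : Derivation κ (PowerSeries κ) (PowerSeries κ) :=
  (PowerSeries.X : PowerSeries κ) • PowerSeries.derivative κ

theorem theta_apply (f : PowerSeries κ) :
    theta f = PowerSeries.X * PowerSeries.derivative κ f := rfl

/-- Formal Ramanujan data: power series `P, Q, R` (the reductions of `E₂, E₄, E₆`) with constant
terms `1` (for `Q, R`), satisfying Ramanujan's differential equations, and with `Q³ - R²` of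
order exactly `1`. -/
structure RData (κ : Type*) [Field κ] where
  /-- `E₂` -/
  P : PowerSeries κ
  /-- `E₄` -/
  Q : PowerSeries κ
  /-- `E₆` -/
  R : PowerSeries κ
  Q0 : PowerSeries.constantCoeff Q = 1
  R0 : PowerSeries.constantCoeff R = 1
  thetaQ : 3 * theta Q = P * Q - R
  thetaR : 2 * theta R = P * R - Q ^ 2
  thetaP : 12 * theta P = P ^ 2 - Q
  order_Dl : (Q ^ 3 - R ^ 2).order = 1

namespace RData

variable (D : RData κ)

/-- evaluation at `(Q, R)`. -/
def ev : MvPolynomial (Fin 2) κ →ₐ[κ] PowerSeries κ := aeval ![D.Q, D.R]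

@[simp] theorem ev_XX : D.ev XX = D.Q := by simp [ev]
@[simp] theorem ev_YY : D.ev YY = D.R := by simp [ev]

theorem ev_Dl : D.ev Dl = D.Q ^ 3 - D.R ^ 2 := by
  rw [Dl, map_sub, map_pow, map_pow, ev_XX, ev_YY]

theorem ev_Dl_ne_zero : D.ev Dl ≠ 0 := by
  intro h
  have := D.order_Dl
  rw [← ev_Dl, h, PowerSeries.order_zero] at this
  exact absurd this (by decide)

theorem not_isUnit_ev_Dl : ¬ IsUnit (D.ev Dl) := by
  intro h
  have := D.order_Dl
  rw [← ev_Dl, PowerSeries.order_zero_of_unit h] at this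
  exact absurd this (by decide)

/-- the derivation identity `12 θ(F(Q,R)) = P · (EF)(Q,R) + (∂F)(Q,R)`. -/
theorem theta_ev (F : MvPolynomial (Fin 2) κ) :
    12 * theta (D.ev F) = D.P * D.ev (ee F) + D.ev (dd F) := by
  induction F using MvPolynomial.induction_on with
  | C a =>
    have h1 : D.ev (C a) = algebraMap κ _ a := by simp [ev]
    have h2 : (C a : MvPolynomial (Fin 2) κ) = algebraMap κ _ a := rfl
    rw [h1, h2, Derivation.map_algebraMap, Derivation.map_algebraMap, Derivation.map_algebraMap]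
    simp
  | add p q hp hq =>
    rw [map_add, map_add, map_add, map_add, map_add, map_add, mul_add, hp, hq]; ring
  | mul_X p i hp =>
    have hgen : 12 * theta (D.ev (X i)) = D.P * D.ev (ee (X i)) + D.ev (dd (X i)) := by
      fin_cases i
      · simp only [Fin.zero_eta, ev_XX, ee_XX, dd_XX, map_mul, map_neg, map_ofNat, ev_YY]
        linear_combination 4 * D.thetaQ
      · simp only [Fin.mk_one, ev_XX, ee_YY, dd_YY, map_mul, map_neg, map_ofNat, ev_YY, map_pow]
        linear_combination 6 * D.thetaR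
    rw [map_mul, Derivation.leibniz, Derivation.leibniz, Derivation.leibniz]
    simp only [smul_eq_mul, map_add, map_mul]
    linear_combination D.ev p * hgen + D.ev (X i) * hp

theorem constantCoeff_ev (F : MvPolynomial (Fin 2) κ) :
    PowerSeries.constantCoeff (D.ev F) = ev11 F := by
  induction F using MvPolynomial.induction_on with
  | C a => simp [ev, ev11]
  | add p q hp hq => rw [map_add, map_add, map_add, hp, hq]
  | mul_X p i hp =>
    rw [map_mul, map_mul, map_mul, hp]
    congr 1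
    fin_cases i
    · simp [ev, ev11, D.Q0]
    · simp [ev, ev11, D.R0]

/-- evaluation at `(Q,R)` is injective on isobaric polynomials. -/
theorem eq_zero_of_ev_eq_zero {k : ℕ} {F : MvPolynomial (Fin 2) κ} (hF : Iso F k)
    (h : D.ev F = 0) : F = 0 := by
  induction k using Nat.strong_induction_on generalizing F with
  | _ k ih =>
    by_contra hne
    have h1 : ev11 F = 0 := by rw [← constantCoeff_ev D, h, map_zero]
    obtain ⟨G, hG⟩ := dvd_of_iso_of_ev11 hF h1
    have hG0 : G ≠ 0 := by rintro rfl; exact hne (by rw [hG, mul_zero])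
    rw [hG] at hF
    obtain ⟨i, j, hi, hj, hij⟩ := iso_of_mul hF Dl_ne_zero hG0
    have hi12 : i = 12 := iso_unique hi iso_Dl Dl_ne_zero
    have h2 : D.ev Dl * D.ev G = 0 := by rw [← map_mul, ← hG, h]
    have h3 : D.ev G = 0 := (mul_eq_zero.mp h2).resolve_left (ev_Dl_ne_zero D)
    exact hG0 (ih j (by omega) hj h3)

theorem eq_of_ev_eq {k : ℕ} {F G : MvPolynomial (Fin 2) κ} (hF : Iso F k) (hG : Iso G k)
    (h : D.ev F = D.ev G) : F = G := by
  have := eq_zero_of_ev_eq_zero D (hF.sub hG) (by rw [map_sub, h, sub_self])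
  exact sub_eq_zero.mp this

/-! ### the Hasse invariant `A` -/

section hasse

variable (ℓ : ℕ) [CharP κ ℓ]

theorem natCast_ne_zero_of_lt {w : ℕ} (h0 : 0 < w) (hl : w < ℓ) : (w : κ) ≠ 0 := by
  rw [Ne, CharP.cast_eq_zero_iff κ ℓ w]
  exact Nat.not_dvd_of_pos_of_lt h0 hl

theorem natCast_pred (hℓ : 1 ≤ ℓ) : ((ℓ - 1 : ℕ) : κ) = -1 := by
  rw [Nat.cast_sub hℓ, CharP.cast_eq_zero κ ℓ, Nat.cast_one, zero_sub]

theorem natCast_succ : ((ℓ + 1 : ℕ) : κ) = 1 := by
  rw [Nat.cast_add, CharP.cast_eq_zero κ ℓ, Nat.cast_one, zero_add]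

variable {ℓ} {A : MvPolynomial (Fin 2) κ}

theorem ne_zero_of_ev_eq_one (hA1 : D.ev A = 1) : A ≠ 0 := by
  rintro rfl
  rw [map_zero] at hA1
  exact zero_ne_one hA1

/-- `(∂A)(Q,R) = P`. -/
theorem ev_dd_hasse (hℓ : 1 ≤ ℓ) (hA : Iso A (ℓ - 1)) (hA1 : D.ev A = 1) :
    D.ev (dd A) = D.P := by
  have h := theta_ev D A
  rw [hA1, ee_iso hA, natCast_pred ℓ hℓ, map_smul, hA1] at h
  have h1 : theta (1 : PowerSeries κ) = 0 := by
    have : (1 : PowerSeries κ) = algebraMap κ _ 1 := by simp
    rw [this, Derivation.map_algebraMap]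
  rw [h1, mul_zero] at h
  have h2 : D.P * ((-1 : κ) • (1 : PowerSeries κ)) = - D.P := by
    rw [neg_smul, one_smul, mul_neg, mul_one]
  rw [h2] at h
  linear_combination -h

/-- `∂²A = -X·A`. -/
theorem dd_dd_hasse (hℓ : 1 ≤ ℓ) (hA : Iso A (ℓ - 1)) (hA1 : D.ev A = 1) :
    dd (dd A) = -XX * A := by
  have hdA : Iso (dd A) (ℓ + 1) := by
    have := iso_dd hA
    have e : ℓ - 1 + 2 = ℓ + 1 := by omega
    rwa [e] at this
  have h := theta_ev D (dd A)
  rw [ev_dd_hasse D hℓ hA hA1, ee_iso hdA, natCast_succ ℓ, one_smul, ev_dd_hasse D hℓ hA hA1,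
    D.thetaP] at h
  have h1 : D.ev (dd (dd A)) = D.ev (-XX * A) := by
    rw [map_mul, map_neg, ev_XX, hA1]
    linear_combination -h
  have i1 : Iso (dd (dd A)) (ℓ + 3) := iso_dd hdA
  have i2 : Iso (-XX * A) (ℓ + 3) := by
    have := (iso_XX (κ := κ)).neg.mul hA
    have e : 4 + (ℓ - 1) = ℓ + 3 := by omega
    rwa [e] at this
  exact eq_of_ev_eq D i1 i2 h1

theorem not_isUnit_of_iso_pos {C : MvPolynomial (Fin 2) κ} {w : ℕ} (hC : Iso C w) (hw : 0 < w)
    (hC0 : C ≠ 0) : ¬ IsUnit C := by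
  intro hu
  obtain ⟨c, -, hc⟩ := MvPolynomial.isUnit_iff_eq_C_of_isReduced.mp hu
  have : Iso C 0 := by rw [hc]; exact isWeightedHomogeneous_C wt c
  have := iso_unique hC this hC0
  omega

theorem iso_pos_of_prime {C : MvPolynomial (Fin 2) κ} {w : ℕ} (hC : Iso C w) (hCp : Prime C) :
    0 < w := by
  rcases Nat.eq_zero_or_pos w with rfl | h
  · exfalso
    have h1 := iso_zero_eq_C hC
    have h2 : coeff 0 C ≠ 0 := by
      intro h0; rw [h0, map_zero] at h1; exact hCp.ne_zero h1
    apply hCp.not_isUnit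
    rw [h1]
    exact (isUnit_iff_ne_zero.mpr h2).map MvPolynomial.C
  · exact h

/-- Key lemma: a prime factor `C` of `A` cannot divide `∂C`. -/
theorem not_dvd_dd_of_prime (hℓ : 5 ≤ ℓ) (hA1 : D.ev A = 1) {C : MvPolynomial (Fin 2) κ}
    {w : ℕ} (hC : Iso C w) (hCp : Prime C) (hwl : w < ℓ) (hCA : C ∣ A) (hdd : C ∣ dd C) :
    False := by
  have hC0 : C ≠ 0 := hCp.ne_zero
  have hw0 : 0 < w := iso_pos_of_prime hC hCp
  have h4 : (4 : κ) ≠ 0 := by
    have := natCast_ne_zero_of_lt (κ := κ) ℓ (w := 4) (by norm_num) (by omega)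
    simpa using this
  -- `∂C = 0`
  have hdC : dd C = 0 := by
    by_contra hne
    obtain ⟨V, hV⟩ := hdd
    have hV0 : V ≠ 0 := by rintro rfl; exact hne (by rw [hV, mul_zero])
    have h1 : Iso (C * V) (w + 2) := by rw [← hV]; exact iso_dd hC
    obtain ⟨i, j, hi, hj, hij⟩ := iso_of_mul h1 hC0 hV0
    have hiw : i = w := iso_unique hi hC hC0
    have hj2 : j = 2 := by omega
    rw [hj2] at hj
    exact hV0 (iso_two_eq_zero hj)
  -- Euler + `∂C = 0` give `4 (X³ - Y²) ∂_X C = w X² C`
  have hid : XX ^ 2 * ee C + YY * dd C = 4 * Dl * pderiv 0 C := by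
    rw [ee_eq, dd_eq, Dl]; ring
  rw [hdC, mul_zero, add_zero, ee_iso hC] at hid
  have hdvd : C ∣ Dl * pderiv 0 C := by
    refine ⟨MvPolynomial.C ((4 : κ)⁻¹ * (w : κ)) * XX ^ 2, ?_⟩
    have h4' : MvPolynomial.C (4 : κ)⁻¹ * (4 : MvPolynomial (Fin 2) κ) = 1 := by
      have : (4 : MvPolynomial (Fin 2) κ) = MvPolynomial.C 4 := by simp [map_ofNat]
      rw [this, ← map_mul, inv_mul_cancel₀ h4, map_one]
    calc Dl * pderiv 0 C
        = (MvPolynomial.C (4 : κ)⁻¹ * 4) * (Dl * pderiv 0 C) := by rw [h4', one_mul]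
      _ = MvPolynomial.C (4 : κ)⁻¹ * (4 * Dl * pderiv 0 C) := by ring
      _ = MvPolynomial.C (4 : κ)⁻¹ * (XX ^ 2 * ((w : κ) • C)) := by rw [hid]
      _ = C * (MvPolynomial.C ((4 : κ)⁻¹ * (w : κ)) * XX ^ 2) := by
          rw [map_mul, smul_eq_C_mul]; ring
  rcases hCp.dvd_or_dvd hdvd with hD | hP
  · -- `C ∣ X³ - Y²`, hence `X³ - Y² ∣ A`: contradiction with `ord (Q³ - R²) = 1`
    have h1 : Dl ∣ C := hCp.irreducible.dvd_symm prime_Dl.irreducible hD
    have h2 : D.ev Dl ∣ D.ev A := map_dvd D.ev (h1.trans hCA)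
    rw [hA1] at h2
    exact not_isUnit_ev_Dl D (isUnit_of_dvd_one h2)
  · -- `C ∣ ∂_X C`, hence `∂_X C = 0` and `w = 0` in `κ`
    have hP0 : pderiv 0 C = 0 := by
      by_contra hne
      obtain ⟨V, hV⟩ := hP
      have hV0 : V ≠ 0 := by rintro rfl; exact hne (by rw [hV, mul_zero])
      have h1 : Iso (C * V) (w - 4) := by rw [← hV]; exact iso_pderiv_zero hC
      obtain ⟨i, j, hi, hj, hij⟩ := iso_of_mul h1 hC0 hV0
      have hiw : i = w := iso_unique hi hC hC0
      omega
    rw [hP0, mul_zero] at hid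
    have h1 : (w : κ) • (XX ^ 2 * C) = 0 := by rw [← mul_smul_comm]; exact hid
    rcases smul_eq_zero.mp h1 with h | h
    · exact natCast_ne_zero_of_lt ℓ hw0 hwl h
    · exact mul_ne_zero (pow_ne_zero 2 (X_ne_zero 0)) hC0 h

theorem isUnit_natCast_of_lt {w : ℕ} (h0 : 0 < w) (hl : w < ℓ) :
    IsUnit ((w : ℕ) : MvPolynomial (Fin 2) κ) := by
  have : ((w : ℕ) : MvPolynomial (Fin 2) κ) = MvPolynomial.C (w : κ) := by simp
  rw [this]
  exact (isUnit_iff_ne_zero.mpr (natCast_ne_zero_of_lt ℓ h0 hl)).map MvPolynomial.C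

/-- `A` is squarefree. -/
theorem squarefree_hasse (hℓ : 5 ≤ ℓ) (hA : Iso A (ℓ - 1)) (hA1 : D.ev A = 1)
    {C : MvPolynomial (Fin 2) κ} (hCp : Prime C) : ¬ C ^ 2 ∣ A := by
  intro hC2
  have hA0 := ne_zero_of_ev_eq_one D hA1
  have hC0 := hCp.ne_zero
  obtain ⟨e, U, hCU, hAe⟩ := WfDvdMonoid.max_power_factor hA0 hCp.irreducible
  have he : 2 ≤ e := by
    by_contra hlt
    rw [not_le] at hlt
    apply hCU
    interval_cases e
    · rw [pow_zero, one_mul] at hAe
      rw [← hAe]; exact (dvd_pow_self C two_ne_zero).trans hC2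
    · rw [pow_one] at hAe
      rw [hAe, pow_two] at hC2
      exact (mul_dvd_mul_iff_left hC0).mp hC2
  obtain ⟨n, rfl⟩ := Nat.exists_eq_add_of_le' he
  have hU0 : U ≠ 0 := by rintro rfl; exact hA0 (by rw [hAe, mul_zero])
  have hA' := hA
  rw [hAe] at hA'
  obtain ⟨i, j, hi, hj, hij⟩ := iso_of_mul hA' (pow_ne_zero _ hC0) hU0
  have hi' : Iso (C * C ^ (n + 1)) i := by rw [← pow_succ']; exact hi
  obtain ⟨w, w', hw, _, hww⟩ := iso_of_mul hi' hC0 (pow_ne_zero _ hC0)
  have hw0 := iso_pos_of_prime hw hCp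
  have hiw : i = (n + 2) * w := iso_unique hi (hw.pow (n + 2)) (pow_ne_zero _ hC0)
  have hnl : n + 2 < ℓ := by
    have : n + 2 ≤ (n + 2) * w := Nat.le_mul_of_pos_right _ hw0
    omega
  have hwl : w < ℓ := by omega
  have hS4 := dd_dd_hasse D (by omega) hA hA1
  rw [hAe, dd_dd_pow_mul] at hS4
  have h1 : -XX * (C ^ (n + 2) * U) = C ^ n * (-XX * C ^ 2 * U) := by ring
  rw [h1] at hS4
  have h2 := mul_left_cancel₀ (pow_ne_zero n hC0) hS4
  have h3 : C ∣ ((n + 2 : ℕ) : MvPolynomial (Fin 2) κ) * ((n + 1 : ℕ) : MvPolynomial (Fin 2) κ)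
          * (U * dd C ^ 2) := by
    refine ⟨-XX * C * U - (C * dd (dd U) + 2 * ((n + 2 : ℕ) : MvPolynomial (Fin 2) κ) * dd U * dd C +
          ((n + 2 : ℕ) : MvPolynomial (Fin 2) κ) * U * dd (dd C)), ?_⟩
    linear_combination h2
  have hu : IsUnit (((n + 2 : ℕ) : MvPolynomial (Fin 2) κ) *
      ((n + 1 : ℕ) : MvPolynomial (Fin 2) κ)) :=
    (isUnit_natCast_of_lt (ℓ := ℓ) (by omega) hnl).mul
      (isUnit_natCast_of_lt (ℓ := ℓ) (by omega) (by omega))
  rw [hu.dvd_mul_left] at h3
  rcases hCp.dvd_or_dvd h3 with h | h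
  · exact hCU h
  · exact not_dvd_dd_of_prime D hℓ hA1 hw hCp hwl ⟨C ^ (n + 1) * U, hAe.trans (by ring)⟩
      (hCp.dvd_of_dvd_pow h)


/-- **Swinnerton-Dyer** (algebraic form): an isobaric `F` of weight `k` whose value `F(Q,R)` is a
nonzero constant has weight divisible by `ℓ - 1`. -/
theorem swd_const (hℓ : 5 ≤ ℓ) (hA : Iso A (ℓ - 1)) (hA1 : D.ev A = 1)
    {F : MvPolynomial (Fin 2) κ} {k : ℕ} (hF : Iso F k) {c : κ} (hc : c ≠ 0)
    (hFc : D.ev F = PowerSeries.C c) : (ℓ - 1) ∣ k := by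
  have hA0 := ne_zero_of_ev_eq_one D hA1
  have hF0 : F ≠ 0 := by
    rintro rfl
    rw [map_zero] at hFc
    have := congrArg PowerSeries.constantCoeff hFc
    simp only [map_zero, PowerSeries.constantCoeff_C] at this
    exact hc this.symm
  have hevC : ∀ x : κ, D.ev (MvPolynomial.C x) = PowerSeries.C x := by
    intro x; simp [ev]
  have h1 : F ^ (ℓ - 1) = MvPolynomial.C (c ^ (ℓ - 1)) * A ^ k := by
    apply eq_of_ev_eq D (k := (ℓ - 1) * k)
    · exact hF.pow (ℓ - 1)
    · have := (hA.pow k).C_mul (c ^ (ℓ - 1))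
      rwa [smul_eq_mul, Nat.mul_comm k] at this
    · rw [map_pow D.ev F, hFc, map_mul, map_pow D.ev A, hA1, one_pow, mul_one, hevC, map_pow]
  have hAu : ¬ IsUnit A := not_isUnit_of_iso_pos hA (by omega) hA0
  obtain ⟨π, hπ, hπA⟩ := WfDvdMonoid.exists_irreducible_factor hAu hA0
  have hπp : Prime π := hπ.prime
  have hm : emultiplicity π A = 1 := by
    have := emultiplicity_eq_of_dvd_of_not_dvd (a := π) (b := A) (k := 1)
      (by rwa [pow_one]) (squarefree_hasse D hℓ hA hA1 hπp)
    simpa using this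
  have hcu : IsUnit (MvPolynomial.C (c ^ (ℓ - 1)) : MvPolynomial (Fin 2) κ) :=
    (isUnit_iff_ne_zero.mpr (pow_ne_zero _ hc)).map MvPolynomial.C
  have h2 := congrArg (emultiplicity π) h1
  rw [emultiplicity_pow hπp, emultiplicity_mul hπp, emultiplicity_pow hπp, hm,
    emultiplicity_of_isUnit_right hπp.not_isUnit hcu, zero_add, mul_one,
    (FiniteMultiplicity.of_prime_left hπp hF0).emultiplicity_eq_multiplicity] at h2
  have h3 : (ℓ - 1) * multiplicity π F = k := by exact_mod_cast h2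
  exact ⟨_, h3.symm⟩

end hasse

end RData

/-- **Swinnerton-Dyer**, algebraic form with explicit hypotheses. `κ` is a field of characteristic
`ℓ ≥ 5`; `P, Q, R` are formal power series (the reductions of `E₂, E₄, E₆`) with `Q(0) = R(0) = 1`
satisfying Ramanujan's differential equations for `θ = q d/dq`, and `Q³ - R²` has order exactly `1`;
`A` is an isobaric polynomial of weight `ℓ - 1` (weights `4, 6`) with `A(Q,R) = 1`. Then every
isobaric `F` of weight `k` with `F(Q,R)` a nonzero constant has `(ℓ - 1) ∣ k`. -/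
theorem swd_const {ℓ : ℕ} [CharP κ ℓ] (hℓ : 5 ≤ ℓ) (P Q R : PowerSeries κ)
    (hQ0 : PowerSeries.constantCoeff Q = 1) (hR0 : PowerSeries.constantCoeff R = 1)
    (hQ : 3 * (PowerSeries.X * PowerSeries.derivative κ Q) = P * Q - R)
    (hR : 2 * (PowerSeries.X * PowerSeries.derivative κ R) = P * R - Q ^ 2)
    (hP : 12 * (PowerSeries.X * PowerSeries.derivative κ P) = P ^ 2 - Q)
    (hΔ : (Q ^ 3 - R ^ 2).order = 1)
    {A : MvPolynomial (Fin 2) κ} (hA : A.IsWeightedHomogeneous ![4, 6] (ℓ - 1))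
    (hA1 : aeval ![Q, R] A = 1)
    {F : MvPolynomial (Fin 2) κ} {k : ℕ} (hF : F.IsWeightedHomogeneous ![4, 6] k)
    {c : κ} (hc : c ≠ 0) (hFc : aeval ![Q, R] F = PowerSeries.C c) : (ℓ - 1) ∣ k :=
  RData.swd_const ⟨P, Q, R, hQ0, hR0, hQ, hR, hP, hΔ⟩ hℓ hA hA1 hF hc hFc

end Fermat.Agent.S16lib.SwD
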