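/-
S16 package E (helper3): the Eisenstein series `E' = -(E₂(τ) - p E₂(pτ))/24 ∈ M₂(Γ₀(p))`
with `q`-expansion `(p-1)/24 + ∑_{k ≥ 1} σ'(k) q^k`, `σ'(k) = ∑_{d ∣ k, p ∤ d} d`.
-/
import Mathlib
import Fermat.Prelude.Def_ModularForm_HeckeOperator
import Fermat.Prelude.Def_FLTPrelim_Modularity
import Fermat.Prelude.Thm_CongruenceSubgroup_one_mem_strictPeriods_Gamma0
import Fermat.Prelude.Thm_ModularFormClass_isBoundedAt_heckeT

set_option autoImplicit false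

noncomputable section

namespace Fermat.Agent.S16lib.EisPrime

open UpperHalfPlane hiding I
open ModularForm EisensteinSeries Complex Real Matrix.SpecialLinearGroup OnePoint
open scoped MatrixGroups ArithmeticFunction.sigma Manifold

/-! ### The arithmetic function `σ'` -/

/-- `σ'(k) = ∑_{d ∣ k, p ∤ d} d`. -/
def sigmaPrime (p k : ℕ) : ℕ := ∑ d ∈ k.divisors with ¬ p ∣ d, d

lemma sum_divisors_filter_dvd (p : ℕ) (hp : p ≠ 0) (m : ℕ) (hm : m ≠ 0) :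
    ∑ d ∈ (p * m).divisors with p ∣ d, d = p * σ 1 m := by
  have h1 : (p * m).divisors.filter (p ∣ ·) = m.divisors.image (p * ·) := by
    ext d
    simp only [Finset.mem_filter, Nat.mem_divisors, Finset.mem_image]
    constructor
    · rintro ⟨⟨hd, _⟩, e, rfl⟩
      exact ⟨e, ⟨(Nat.mul_dvd_mul_iff_left (Nat.pos_of_ne_zero hp)).mp hd, hm⟩, rfl⟩
    · rintro ⟨e, ⟨he, _⟩, rfl⟩
      exact ⟨⟨Nat.mul_dvd_mul_left p he, mul_ne_zero hp hm⟩, dvd_mul_right p e⟩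
  rw [h1, Finset.sum_image (fun a _ b _ h => Nat.eq_of_mul_eq_mul_left (Nat.pos_of_ne_zero hp) h),
    ArithmeticFunction.sigma_apply, Finset.mul_sum]
  simp

lemma sigma_eq_sigmaPrime_add (p : ℕ) (hp : p ≠ 0) (k : ℕ) :
    σ 1 k = sigmaPrime p k + if p ∣ k then p * σ 1 (k / p) else 0 := by
  rcases eq_or_ne k 0 with rfl | hk
  · simp [sigmaPrime]
  have h := Finset.sum_filter_add_sum_filter_not k.divisors (p ∣ ·) (fun d => d)
  rw [ArithmeticFunction.sigma_apply]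
  simp only [pow_one]
  rw [← h, add_comm, sigmaPrime]
  congr 1
  split_ifs with hpk
  · obtain ⟨m, rfl⟩ := hpk
    have hm : m ≠ 0 := fun h => hk (by simp [h])
    rw [sum_divisors_filter_dvd p hp m hm, Nat.mul_div_cancel_left m (Nat.pos_of_ne_zero hp)]
  · apply Finset.sum_eq_zero
    intro d hd
    simp only [Finset.mem_filter, Nat.mem_divisors] at hd
    exact absurd (hd.2.trans hd.1.1) hpk

lemma sigmaPrime_zero (p : ℕ) : sigmaPrime p 0 = 0 := by simp [sigmaPrime]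

lemma sigmaPrime_one (p : ℕ) (hp : 2 ≤ p) : sigmaPrime p 1 = 1 := by
  have h1 : ¬ p ∣ 1 := by
    intro h; have := Nat.le_of_dvd one_pos h; omega
  rw [sigmaPrime, Nat.divisors_one, Finset.filter_singleton, if_pos h1, Finset.sum_singleton]

/-- For `p ∤ k`, `σ'(k) = σ(k)`. -/
lemma sigmaPrime_of_not_dvd (p : ℕ) (hp : p ≠ 0) (k : ℕ) (h : ¬ p ∣ k) :
    sigmaPrime p k = σ 1 k := by
  rw [sigma_eq_sigmaPrime_add p hp k, if_neg h, add_zero]

/-- `σ'(pk) = σ'(k)` for `p` prime. -/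
lemma sigmaPrime_prime_mul (p : ℕ) (hp : p.Prime) (k : ℕ) :
    sigmaPrime p (p * k) = sigmaPrime p k := by
  rcases eq_or_ne k 0 with rfl | hk
  · simp
  unfold sigmaPrime
  congr 1
  ext d
  simp only [Finset.mem_filter, Nat.mem_divisors]
  constructor
  · rintro ⟨⟨hd, _⟩, hpd⟩
    refine ⟨⟨?_, hk⟩, hpd⟩
    exact (Nat.Coprime.dvd_mul_left ((Nat.Prime.coprime_iff_not_dvd hp).mpr hpd).symm).mp hd
  · rintro ⟨⟨hd, _⟩, hpd⟩
    exact ⟨⟨hd.mul_left p, mul_ne_zero hp.ne_zero hk⟩, hpd⟩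

/-! ### The function `E₂(τ) - p E₂(pτ)` and its `q`-expansion -/

/-- `E₂(τ) - p E₂(pτ)` as a function on the upper half plane. -/
def eisFun (p : ℕ) : ℍ → ℂ := E2 - E2 ∣[(2 : ℤ)] heckeDiagMatrix p

/-- coefficients of `E₂` -/
def e2Coeff (m : ℕ) : ℂ := if m = 0 then 1 else -24 * (σ 1 m : ℂ)

lemma hasSum_E2 (τ : ℍ) :
    HasSum (fun n : ℕ => e2Coeff n • cexp (2 * π * I * τ) ^ n) (E2 τ) :=
  hasSum_qExpansion_E2 τ

lemma hasSum_E2_slash_diag (p : ℕ) (hp : p ≠ 0) (τ : ℍ) :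
    HasSum (fun n : ℕ => ((p : ℂ) * if p ∣ n then e2Coeff (n / p) else 0) •
      cexp (2 * π * I * τ) ^ n) ((E2 ∣[(2 : ℤ)] heckeDiagMatrix p) τ) := by
  have h1 := hasSum_E2 (heckeDiagMatrix p • τ)
  rw [coe_heckeDiagMatrix_smul hp] at h1
  have h2 := h1.mul_left (p : ℂ)
  rw [slash_heckeDiagMatrix_apply 2 hp, show ((2 : ℤ) - 1) = 1 by norm_num, zpow_one]
  set q := cexp (2 * π * I * τ) with hq
  have hqp : cexp (2 * π * I * (p * τ)) = q ^ p := by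
    rw [hq, ← Complex.exp_nat_mul]; congr 1; ring
  rw [hqp] at h2
  have hinj : Function.Injective (fun m : ℕ => p * m) :=
    fun a b h => Nat.eq_of_mul_eq_mul_left (Nat.pos_of_ne_zero hp) h
  rw [← hinj.hasSum_iff]
  · have hfun : ((fun n : ℕ => ((p : ℂ) * if p ∣ n then e2Coeff (n / p) else 0) • q ^ n) ∘
        fun m : ℕ => p * m) = fun m : ℕ => (p : ℂ) * e2Coeff m • (q ^ p) ^ m := by
      funext m
      simp only [Function.comp_apply, dvd_mul_right, if_true,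
        Nat.mul_div_cancel_left m (Nat.pos_of_ne_zero hp), smul_eq_mul, pow_mul]
      ring
    rw [hfun]
    exact h2
  · intro n hn
    have : ¬ p ∣ n := fun ⟨m, hm⟩ => hn ⟨m, hm.symm⟩
    simp [this]

lemma hasSum_eisFun (p : ℕ) (hp : p ≠ 0) (τ : ℍ) :
    HasSum (fun n : ℕ => (e2Coeff n - (p : ℂ) * if p ∣ n then e2Coeff (n / p) else 0) •
      cexp (2 * π * I * τ) ^ n) (eisFun p τ) := by
  have := (hasSum_E2 τ).sub (hasSum_E2_slash_diag p hp τ)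
  simp only [← sub_smul] at this
  exact this

/-- coefficients of `E'`: `(p-1)/24` and `σ'(n)` for `n ≥ 1`. -/
def eisPrimeCoeff (p n : ℕ) : ℂ := if n = 0 then ((p : ℂ) - 1) / 24 else (sigmaPrime p n : ℂ)

lemma eisPrimeCoeff_eq (p : ℕ) (hp : p ≠ 0) (n : ℕ) :
    (-1 / 24 : ℂ) * (e2Coeff n - (p : ℂ) * if p ∣ n then e2Coeff (n / p) else 0) =
      eisPrimeCoeff p n := by
  rcases eq_or_ne n 0 with rfl | hn
  · simp [e2Coeff, eisPrimeCoeff]; ring
  · have hs := sigma_eq_sigmaPrime_add p hp n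
    rw [eisPrimeCoeff, if_neg hn, e2Coeff, if_neg hn]
    split_ifs with hpn
    · obtain ⟨m, rfl⟩ := hpn
      have hm : m ≠ 0 := fun h => hn (by simp [h])
      rw [if_pos (dvd_mul_right p m), Nat.mul_div_cancel_left m (Nat.pos_of_ne_zero hp)] at hs
      rw [Nat.mul_div_cancel_left m (Nat.pos_of_ne_zero hp), e2Coeff, if_neg hm, hs]
      push_cast
      ring
    · rw [if_neg hpn, add_zero] at hs
      rw [hs]; ring

lemma hasSum_neg_eisFun_div (p : ℕ) (hp : p ≠ 0) (τ : ℍ) :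
    HasSum (fun n : ℕ => eisPrimeCoeff p n • cexp (2 * π * I * τ) ^ n)
      ((-1 / 24 : ℂ) * eisFun p τ) := by
  have := (hasSum_eisFun p hp τ).mul_left (-1 / 24 : ℂ)
  simp only [smul_eq_mul, ← mul_assoc, eisPrimeCoeff_eq p hp] at this
  exact this

/-! ### Slash invariance under `Γ₀(p)` -/

lemma sl_det_eq (g : SL(2, ℤ)) : g 0 0 * g 1 1 - g 0 1 * g 1 0 = 1 := by
  have h := g.det_coe
  rwa [Matrix.det_fin_two] at h

/-- the conjugate `γ' = α γ α⁻¹` of `γ ∈ Γ₀(p)` by `α = diag(p,1)` -/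
def conjDiag (p : ℕ) (g : SL(2, ℤ)) (e : ℤ) (he : g 1 0 = p * e) : SL(2, ℤ) :=
  ⟨!![g 0 0, p * g 0 1; e, g 1 1], by
    rw [Matrix.det_fin_two_of]
    linear_combination sl_det_eq g + (g 0 1) * he⟩

section
variable (p : ℕ) (g : SL(2, ℤ)) (e : ℤ) (he : g 1 0 = p * e)
lemma conjDiag_00 : (conjDiag p g e he) 0 0 = g 0 0 := rfl
lemma conjDiag_01 : (conjDiag p g e he) 0 1 = p * g 0 1 := rfl
lemma conjDiag_10 : (conjDiag p g e he) 1 0 = e := rfl
lemma conjDiag_11 : (conjDiag p g e he) 1 1 = g 1 1 := rfl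
end

lemma heckeDiagMatrix_mul_mapGL (p : ℕ) (hp : p ≠ 0) (g : SL(2, ℤ)) (e : ℤ) (he : g 1 0 = p * e) :
    heckeDiagMatrix p * mapGL ℝ g = mapGL ℝ (conjDiag p g e he) * heckeDiagMatrix p := by
  have h := congrArg (Int.cast : ℤ → ℝ) he
  push_cast at h
  ext i j
  fin_cases i <;> fin_cases j <;>
    simp [hp, Matrix.mul_apply, Fin.sum_univ_two, conjDiag_00, conjDiag_01, conjDiag_10,
      conjDiag_11]
  all_goals first
    | ring1
    | linear_combination h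

lemma D2_conjDiag_slash (p : ℕ) (hp : p ≠ 0) (g : SL(2, ℤ)) (e : ℤ) (he : g 1 0 = p * e) :
    (D2 (conjDiag p g e he)) ∣[(2 : ℤ)] heckeDiagMatrix p = D2 g := by
  funext τ
  have hp' : (p : ℂ) ≠ 0 := by exact_mod_cast hp
  have h := congrArg (Int.cast : ℤ → ℂ) he
  push_cast at h
  have hden : (p : ℂ) * e * τ + g 1 1 ≠ 0 := by
    have := UpperHalfPlane.denom_ne_zero g τ
    rw [ModularGroup.denom_apply, h] at this
    exact this
  rw [slash_heckeDiagMatrix_apply 2 hp, show ((2 : ℤ) - 1) = 1 by norm_num, zpow_one]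
  simp only [D2]
  rw [ModularGroup.denom_apply, ModularGroup.denom_apply, coe_heckeDiagMatrix_smul hp,
    conjDiag_10, conjDiag_11, h]
  have hden' : (e : ℂ) * (p * τ) + g 1 1 ≠ 0 := by
    convert hden using 1; ring
  field_simp

lemma smul_slash_heckeDiagMatrix (p : ℕ) (k : ℤ) (c : ℂ) (f : ℍ → ℂ) :
    (c • f) ∣[k] heckeDiagMatrix p = c • f ∣[k] heckeDiagMatrix p := by
  rw [ModularForm.smul_slash, σ_heckeDiagMatrix]
  rfl

lemma E2_slash_diag_slash (p : ℕ) (hp : p ≠ 0) (g : SL(2, ℤ)) (e : ℤ) (he : g 1 0 = p * e) :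
    (E2 ∣[(2 : ℤ)] heckeDiagMatrix p) ∣[(2 : ℤ)] g =
      E2 ∣[(2 : ℤ)] heckeDiagMatrix p - (1 / (2 * riemannZeta 2)) • D2 g := by
  have h1 : (E2 ∣[(2 : ℤ)] heckeDiagMatrix p) ∣[(2 : ℤ)] g =
      (E2 ∣[(2 : ℤ)] heckeDiagMatrix p) ∣[(2 : ℤ)] (mapGL ℝ g) := rfl
  have h2 : E2 ∣[(2 : ℤ)] (mapGL ℝ (conjDiag p g e he)) = E2 ∣[(2 : ℤ)] (conjDiag p g e he) := rfl
  rw [h1, ← SlashAction.slash_mul, heckeDiagMatrix_mul_mapGL p hp g e he, SlashAction.slash_mul,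
    h2, E2_slash_action, sub_eq_add_neg, SlashAction.add_slash, SlashAction.neg_slash,
    ← sub_eq_add_neg, smul_slash_heckeDiagMatrix, D2_conjDiag_slash p hp g e he]

/-- `E₂(τ) - p E₂(pτ)` is invariant under the weight-2 slash action of `Γ₀(p)`. -/
lemma eisFun_slash (p : ℕ) (hp : p ≠ 0) (g : SL(2, ℤ)) (hg : g ∈ CongruenceSubgroup.Gamma0 p) :
    eisFun p ∣[(2 : ℤ)] g = eisFun p := by
  obtain ⟨e, he⟩ : (p : ℤ) ∣ g 1 0 :=
    (ZMod.intCast_zmod_eq_zero_iff_dvd _ _).mp (CongruenceSubgroup.Gamma0_mem.mp hg)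
  rw [eisFun, sub_eq_add_neg, SlashAction.add_slash, SlashAction.neg_slash,
    E2_slash_diag_slash p hp g e he, E2_slash_action]
  abel

/-! ### Boundedness at the cusps -/

lemma isBoundedAtImInfty_D2 (g : SL(2, ℤ)) : IsBoundedAtImInfty (D2 g) := by
  rw [isBoundedAtImInfty_iff]
  refine ⟨2 * π, 1, fun z hz => ?_⟩
  simp only [D2]
  rcases eq_or_ne (g 1 0) 0 with h0 | h0
  · rw [h0]; simp; positivity
  · have hc : (1 : ℝ) ≤ |((g 1 0 : ℤ) : ℝ)| := by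
      have : (1 : ℤ) ≤ |g 1 0| := Int.one_le_abs h0
      exact_mod_cast this
    have hden : |((g 1 0 : ℤ) : ℝ)| * z.im ≤ ‖denom g z‖ := by
      rw [ModularGroup.denom_apply]
      calc |((g 1 0 : ℤ) : ℝ)| * z.im = |(((g 1 0 : ℤ) : ℂ) * z + (g 1 1 : ℤ)).im| := by
            simp [abs_mul, abs_of_pos z.im_pos]
        _ ≤ _ := Complex.abs_im_le_norm _
    have hpos : 0 < |((g 1 0 : ℤ) : ℝ)| * z.im := by
      have := z.im_pos
      positivity
    rw [norm_div]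
    rw [div_le_iff₀ (lt_of_lt_of_le hpos hden)]
    have : ‖2 * (π : ℂ) * I * ((g 1 0 : ℤ) : ℂ)‖ = 2 * π * |((g 1 0 : ℤ) : ℝ)| := by
      simp [abs_of_pos Real.pi_pos]
    rw [this]
    calc 2 * π * |((g 1 0 : ℤ) : ℝ)| ≤ 2 * π * (|((g 1 0 : ℤ) : ℝ)| * z.im) := by
          have : |((g 1 0 : ℤ) : ℝ)| ≤ |((g 1 0 : ℤ) : ℝ)| * z.im := by nlinarith
          have h2 : 0 ≤ 2 * π := by positivity
          exact mul_le_mul_of_nonneg_left this h2
      _ ≤ 2 * π * ‖denom g z‖ := by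
          have h2 : 0 ≤ 2 * π := by positivity
          exact mul_le_mul_of_nonneg_left hden h2

/-- `E₂ ∣ g` is bounded at `i∞` for every `g ∈ GL₂(ℝ)` which sends `∞` to a rational cusp. -/
lemma isBoundedAtImInfty_E2_slash (g : GL (Fin 2) ℝ) (hg : IsCusp (g • ∞) 𝒮ℒ) :
    IsBoundedAtImInfty (E2 ∣[(2 : ℤ)] g) := by
  obtain ⟨γ, hγ⟩ := isCusp_SL2Z_iff'.mp hg
  set β : GL (Fin 2) ℝ := (mapGL ℝ γ)⁻¹ * g with hβ
  have hβinf : β • (∞ : OnePoint ℝ) = ∞ := by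
    rw [hβ, mul_smul, hγ, ← mul_smul, inv_mul_cancel, one_smul]
  have hβ10 : β 1 0 = 0 := smul_infty_eq_self_iff.mp hβinf
  have hg' : g = mapGL ℝ γ * β := by rw [hβ, mul_inv_cancel_left]
  have h2 : E2 ∣[(2 : ℤ)] (mapGL ℝ γ) = E2 ∣[(2 : ℤ)] γ := rfl
  rw [hg', SlashAction.slash_mul, h2, E2_slash_action]
  refine IsBoundedAtImInfty.slash 2 hβ10 ?_
  exact isBoundedAtImInfty_E2.sub ((isBoundedAtImInfty_D2 γ).const_smul_left _)

lemma isCusp_heckeDiagMatrix_smul (p : ℕ) {c : OnePoint ℝ} (hc : IsCusp c 𝒮ℒ) :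
    IsCusp (heckeDiagMatrix p • c) 𝒮ℒ := by
  obtain ⟨g, hg⟩ :=
    P2MW.S_ModularFormClass_isBoundedAt_heckeT.ModularForm.S06W2.exists_heckeDiagMatrix_eq_map p
  rw [hg]
  exact P2MW.S_ModularFormClass_isBoundedAt_heckeT.ModularForm.S06W2.isCusp_ratCast_smul hc g

lemma isBoundedAt_eisFun (p : ℕ) {c : OnePoint ℝ} (hc : IsCusp c 𝒮ℒ) :
    c.IsBoundedAt (eisFun p) 2 := by
  rw [isBoundedAt_iff_forall_SL2Z hc]
  intro γ hγ
  have hγc : IsCusp (mapGL ℝ γ • (∞ : OnePoint ℝ)) 𝒮ℒ := hγ ▸ hc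
  rw [eisFun, sub_eq_add_neg, SlashAction.add_slash, SlashAction.neg_slash, ← sub_eq_add_neg]
  have hA : IsBoundedAtImInfty (E2 ∣[(2 : ℤ)] γ) :=
    isBoundedAtImInfty_E2_slash (mapGL ℝ γ) hγc
  have hB : IsBoundedAtImInfty ((E2 ∣[(2 : ℤ)] heckeDiagMatrix p) ∣[(2 : ℤ)] γ) := by
    have h1 : (E2 ∣[(2 : ℤ)] heckeDiagMatrix p) ∣[(2 : ℤ)] γ =
        (E2 ∣[(2 : ℤ)] heckeDiagMatrix p) ∣[(2 : ℤ)] (mapGL ℝ γ) := rfl
    rw [h1, ← SlashAction.slash_mul]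
    refine isBoundedAtImInfty_E2_slash _ ?_
    rw [mul_smul]
    exact isCusp_heckeDiagMatrix_smul p hγc
  exact hA.sub hB

lemma mdifferentiable_eisFun (p : ℕ) : MDiff (eisFun p) :=
  E2_mdifferentiable.sub (E2_mdifferentiable.slash 2 (heckeDiagMatrix p))

/-! ### The modular form `E'` -/

/-- The Eisenstein series `E' = -(E₂(τ) - p E₂(pτ))/24` of weight 2 on `Γ₀(p)`. -/
def eisPrime (p : ℕ) [NeZero p] :
    ModularForm ((CongruenceSubgroup.Gamma0 p : Subgroup SL(2, ℤ)) : Subgroup (GL (Fin 2) ℝ)) 2 where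
  toFun := (-1 / 24 : ℂ) • eisFun p
  slash_action_eq' := by
    rintro _ ⟨γ, hγ, rfl⟩
    show ((-1 / 24 : ℂ) • eisFun p) ∣[(2 : ℤ)] γ = (-1 / 24 : ℂ) • eisFun p
    rw [SL_smul_slash, eisFun_slash p (NeZero.ne p) γ hγ]
  holo' := (mdifferentiable_eisFun p).const_smul _
  bdd_at_cusps' {c} hc := by
    rw [Subgroup.IsArithmetic.isCusp_iff_isCusp_SL2Z] at hc
    intro g hg
    have h := isBoundedAt_eisFun p hc g hg
    show IsBoundedAtImInfty (((-1 / 24 : ℂ) • eisFun p) ∣[(2 : ℤ)] g)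
    rw [ModularForm.smul_slash]
    exact h.const_smul_left _

lemma eisPrime_apply (p : ℕ) [NeZero p] (τ : ℍ) :
    eisPrime p τ = (-1 / 24 : ℂ) * eisFun p τ := rfl

/-- The `q`-expansion of `E'`, as a `HasSum`. -/
theorem hasSum_eisPrime (p : ℕ) [NeZero p] (τ : ℍ) :
    HasSum (fun n : ℕ => eisPrimeCoeff p n • Function.Periodic.qParam 1 τ ^ n) (eisPrime p τ) := by
  have h := hasSum_neg_eisFun_div p (NeZero.ne p) τ
  rw [eisPrime_apply]
  have hq : Function.Periodic.qParam 1 (τ : ℂ) = cexp (2 * π * I * τ) := by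
    simp [Function.Periodic.qParam]
  rw [hq]
  exact h

/-- The `q`-expansion coefficients of `E'`. -/
theorem qExpansion_eisPrime_coeff (p : ℕ) [NeZero p] (n : ℕ) :
    (qExpansion 1 (eisPrime p)).coeff n = eisPrimeCoeff p n :=
  (ModularFormClass.qExpansion_coeff_unique one_pos
    (CongruenceSubgroup.one_mem_strictPeriods_Gamma0 p) (hasSum_eisPrime p) n).symm

theorem qCoeff_eisPrime_zero (p : ℕ) [NeZero p] :
    ModularFormClass.qCoeff (eisPrime p) 0 = ((p : ℂ) - 1) / 24 := by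
  rw [ModularFormClass.qCoeff, qExpansion_eisPrime_coeff, eisPrimeCoeff, if_pos rfl]

theorem qCoeff_eisPrime (p : ℕ) [NeZero p] (n : ℕ) (hn : n ≠ 0) :
    ModularFormClass.qCoeff (eisPrime p) n = (sigmaPrime p n : ℂ) := by
  rw [ModularFormClass.qCoeff, qExpansion_eisPrime_coeff, eisPrimeCoeff, if_neg hn]

lemma sigmaPrime_cast_int (p : ℕ) (hp : p ≠ 0) (n : ℕ) :
    (sigmaPrime p n : ℤ) =
      (σ 1 n : ℤ) - if p ∣ n then (p : ℤ) * (σ 1 (n / p) : ℤ) else 0 := by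
  have h := sigma_eq_sigmaPrime_add p hp n
  split_ifs at h ⊢ with hpn
  · rw [h]; push_cast; ring
  · rw [h]; push_cast; ring

/-- The coefficients of `E'` in the form `σ(n) - p σ(n/p)` (package A's `sigmaP`). -/
theorem qCoeff_eisPrime_sub (p : ℕ) [NeZero p] (n : ℕ) (hn : n ≠ 0) :
    ModularFormClass.qCoeff (eisPrime p) n =
      (((σ 1 n : ℤ) - if p ∣ n then (p : ℤ) * (σ 1 (n / p) : ℤ) else 0 : ℤ) : ℂ) := by
  rw [qCoeff_eisPrime p n hn, ← sigmaPrime_cast_int p (NeZero.ne p) n]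
  norm_cast

/-- Interface for package A: existence of the Eisenstein series of weight 2 and level `p`. -/
theorem exists_eisenstein_form (p : ℕ) [Fact p.Prime] :
    ∃ E : ModularForm
        ((CongruenceSubgroup.Gamma0 p : Subgroup SL(2, ℤ)) : Subgroup (GL (Fin 2) ℝ)) 2,
      ModularFormClass.qCoeff E 0 = ((p : ℂ) - 1) / 24 ∧
      ∀ k : ℕ, 1 ≤ k → ModularFormClass.qCoeff E k =
        (((σ 1 k : ℤ) - if p ∣ k then (p : ℤ) * (σ 1 (k / p) : ℤ) else 0 : ℤ) : ℂ) := by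
  have : NeZero p := ⟨(Fact.out : p.Prime).ne_zero⟩
  exact ⟨eisPrime p, qCoeff_eisPrime_zero p,
    fun k hk => qCoeff_eisPrime_sub p k (Nat.one_le_iff_ne_zero.mp hk)⟩

end Fermat.Agent.S16lib.EisPrime
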