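/-
S16 library, package A (helper5), step A-1: pure algebra.
If `lam : ℤ[X_i] → T` is surjective and `eps : ℤ[X_i] → ℤ`, then `T ⧸ lam(ker eps)` is a quotient
of `ℤ`; it has exactly `n` elements as soon as a lower bound (LB) and an upper bound (UB) hold.
-/
import Mathlib

set_option autoImplicit false

namespace Fermat.Agent.S16lib.Red16

open MvPolynomial

section

variable {σ : Type*} {T : Type*} [CommRing T]

/-- Every element of `T ⧸ lam(ker eps)` is the class of an integer. -/
theorem mk_lam_eq_intCast (lam : MvPolynomial σ ℤ →+* T) (eps : MvPolynomial σ ℤ →+* ℤ)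
    (P : MvPolynomial σ ℤ) :
    Ideal.Quotient.mk (Ideal.map lam (RingHom.ker eps)) (lam P) =
      ((eps P : ℤ) : T ⧸ Ideal.map lam (RingHom.ker eps)) := by
  have h1 : P - C (eps P) ∈ RingHom.ker eps := by
    rw [RingHom.mem_ker, map_sub, sub_eq_zero]
    have : eps (C (eps P)) = (eps.comp C) (eps P) := rfl
    rw [this, eq_intCast (eps.comp C) (eps P), Int.cast_id]
  have h2 : lam (P - C (eps P)) ∈ Ideal.map lam (RingHom.ker eps) := Ideal.mem_map_of_mem lam h1
  rw [map_sub] at h2
  have h3 := (Ideal.Quotient.eq).mpr h2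
  rw [h3]
  have : lam (C (eps P)) = ((eps P : ℤ) : T) := by
    have : lam (C (eps P)) = (lam.comp C) (eps P) := rfl
    rw [this, eq_intCast]
  rw [this, map_intCast]

/-- **(A-1)** The cardinality of `T ⧸ lam(ker eps)` from the two bounds. -/
theorem card_quot_map_ker_eq (lam : MvPolynomial σ ℤ →+* T) (hsurj : Function.Surjective lam)
    (eps : MvPolynomial σ ℤ →+* ℤ) (n : ℕ) (hn : n ≠ 0)
    (LB : ∀ P, lam P = 0 → (n : ℤ) ∣ eps P)
    (UB : ∀ ℓ s : ℕ, ℓ.Prime → ∀ φ : T →+* ZMod (ℓ ^ s),
      (∀ P, φ (lam P) = ((eps P : ℤ) : ZMod (ℓ ^ s))) → ℓ ^ s ∣ n) :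
    Nat.card (T ⧸ Ideal.map lam (RingHom.ker eps)) = n := by
  set J := Ideal.map lam (RingHom.ker eps) with hJ
  set f : ℤ →+* T ⧸ J := Int.castRingHom (T ⧸ J) with hf
  have hfsurj : Function.Surjective f := by
    intro x
    obtain ⟨t, rfl⟩ := Ideal.Quotient.mk_surjective x
    obtain ⟨P, rfl⟩ := hsurj t
    exact ⟨eps P, by rw [hf, eq_intCast, mk_lam_eq_intCast]⟩
  -- the kernel of `ℤ → T ⧸ J`
  have hker : RingHom.ker f = Ideal.span {(n : ℤ)} := by
    apply le_antisymm
    · intro a ha
      rw [RingHom.mem_ker, hf, eq_intCast] at ha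
      have h1 : Ideal.Quotient.mk J ((a : ℤ) : T) = 0 := by rw [map_intCast]; exact ha
      rw [Ideal.Quotient.eq_zero_iff_mem, hJ, Ideal.mem_map_iff_of_surjective lam hsurj] at h1
      obtain ⟨i, hi, hia⟩ := h1
      have h2 : lam (C a - i) = 0 := by
        rw [map_sub, hia, sub_eq_zero]
        have : lam (C a) = (lam.comp C) a := rfl
        rw [this, eq_intCast]
      have h3 := LB _ h2
      rw [map_sub, RingHom.mem_ker.mp hi, sub_zero] at h3
      have : eps (C a) = a := by
        have : eps (C a) = (eps.comp C) a := rfl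
        rw [this, eq_intCast, Int.cast_id]
      rw [this] at h3
      exact Ideal.mem_span_singleton.mpr h3
    · -- the generator `m` of the kernel divides `n`
      obtain ⟨m, hm⟩ : ∃ m : ℕ, RingHom.ker f = Ideal.span {(m : ℤ)} := by
        obtain ⟨g, hg⟩ := (IsPrincipalIdealRing.principal (RingHom.ker f)).principal
        refine ⟨g.natAbs, ?_⟩
        rw [hg, Ideal.submodule_span_eq, Int.span_natAbs]
      -- ring homs out of the quotient
      have hφ : ∀ M : ℕ, (M : ℤ) ∣ (m : ℤ) → ∃ φ' : (T ⧸ J) →+* ZMod M, True := by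
        intro M hM
        have e := RingHom.quotientKerEquivOfSurjective hfsurj
        have hle : ∀ a ∈ RingHom.ker f, Int.castRingHom (ZMod M) a = 0 := by
          intro a ha
          rw [hm, Ideal.mem_span_singleton] at ha
          rw [eq_intCast, ZMod.intCast_zmod_eq_zero_iff_dvd]
          exact hM.trans ha
        exact ⟨(Ideal.Quotient.lift _ (Int.castRingHom (ZMod M)) hle).comp e.symm.toRingHom,
          trivial⟩
      have hUB : ∀ ℓ s : ℕ, ℓ.Prime → ((ℓ ^ s : ℕ) : ℤ) ∣ (m : ℤ) → ℓ ^ s ∣ n := by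
        intro ℓ s hℓ hdvd
        obtain ⟨φ', -⟩ := hφ (ℓ ^ s) hdvd
        refine UB ℓ s hℓ (φ'.comp (Ideal.Quotient.mk J)) fun P => ?_
        rw [RingHom.comp_apply, mk_lam_eq_intCast, map_intCast]
      have hmn : m ∣ n := by
        rcases Nat.eq_zero_or_pos m with h0 | hpos
        · exfalso
          subst h0
          have h1 := hUB 2 n Nat.prime_two (by simp)
          have h2 := Nat.le_of_dvd (Nat.pos_of_ne_zero hn) h1
          exact absurd h2 (not_le.mpr (Nat.lt_two_pow_self))
        · rw [Nat.dvd_iff_prime_pow_dvd_dvd]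
          intro ℓ s hℓ hdvd
          exact hUB ℓ s hℓ (by exact_mod_cast hdvd)
      rw [hm, Ideal.span_singleton_le_span_singleton]
      exact_mod_cast hmn
  have e := RingHom.quotientKerEquivOfSurjective hfsurj
  rw [← Nat.card_congr e.toEquiv, hker]
  rw [Nat.card_congr (Int.quotientSpanNatEquivZMod n).toEquiv, Nat.card_zmod]

end

end Fermat.Agent.S16lib.Red16
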