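/-
S16 library, package A (helper5), step A-2: the `a₁`-pairing between the integral Hecke algebra
`T_L = heckeLatticeAlgebra N ∅` and the lattice `L = intLattice N 2` is perfect:
every additive map `T_L → ℤ` is `t ↦ a₁(t f)` for a unique `f ∈ L`.
-/
import Mathlib
import Fermat.Prelude.Def_CuspForm_HeckeLocal
import Fermat.Prelude.Def_CuspForm_HeckeEvalForms
import Fermat.Agent.Helper8.QCoeff
import Fermat.Agent.ProgramR.Descent.HeckeFG

set_option autoImplicit false
set_option linter.unusedSectionVars false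

noncomputable section

namespace Fermat.Agent.S16lib.Red16

open CuspForm ModularFormClass CongruenceSubgroup
open Fermat.Agent Fermat.Agent.ProgramR.Descent

variable (N : ℕ) [NeZero N]

set_option quotPrecheck false in
local notation "Lat" => ↥(CuspForm.intLattice N 2)

set_option quotPrecheck false in
local notation "TL" => ↥(CuspForm.heckeLatticeAlgebra N ∅)

/-- The `k`-th `q`-coefficient of an element of the lattice, as an integer. -/
def intCoeff (f : Lat) (k : ℕ) : ℤ :=
  ((Helper8.mem_intLattice_iff f.1).mp f.2 k).choose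

theorem intCoeff_spec (f : Lat) (k : ℕ) :
    qCoeff (f : CuspForm (Gamma0 N) 2) k = (intCoeff N f k : ℂ) :=
  ((Helper8.mem_intLattice_iff f.1).mp f.2 k).choose_spec

theorem intCoeff_eq_iff (f : Lat) (k : ℕ) (m : ℤ) :
    intCoeff N f k = m ↔ qCoeff (f : CuspForm (Gamma0 N) 2) k = (m : ℂ) := by
  rw [intCoeff_spec]
  exact ⟨fun h => by rw [h], fun h => by exact_mod_cast h⟩

/-- The `k`-th coefficient as a linear functional on the lattice. -/
def intCoeffHom (k : ℕ) : Lat →ₗ[ℤ] ℤ where
  toFun f := intCoeff N f k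
  map_add' f g := by
    rw [intCoeff_eq_iff]
    push_cast
    rw [← intCoeff_spec, ← intCoeff_spec]
    exact Helper8.qCoeff_add _ _ k
  map_smul' c f := by
    rw [intCoeff_eq_iff]
    simp only [RingHom.id_apply, smul_eq_mul]
    push_cast
    rw [← intCoeff_spec]
    exact Helper8.qCoeff_zsmul c _ k

@[simp] theorem intCoeffHom_apply (k : ℕ) (f : Lat) : intCoeffHom N k f = intCoeff N f k := rfl

theorem intCoeff_zero (f : Lat) : intCoeff N f 0 = 0 := by
  rw [intCoeff_eq_iff]
  push_cast
  exact Helper8.qCoeff_cusp_zero _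

/-- An element of the lattice is determined by its integer coefficients. -/
theorem eq_zero_of_intCoeff_eq_zero (f : Lat) (h : ∀ k, intCoeff N f k = 0) : f = 0 := by
  apply Subtype.ext
  apply Helper8.eq_zero_of_qCoeff_eq_zero
  intro k
  rw [intCoeff_spec, h k]; simp

/-- The pairing `(t, f) ↦ a₁(t f)`. -/
def latPair : TL →ₗ[ℤ] Lat →ₗ[ℤ] ℤ :=
  (LinearMap.llcomp ℤ Lat Lat ℤ (intCoeffHom N 1)).comp
    (CuspForm.heckeLatticeAlgebra N ∅).val.toLinearMap

theorem latPair_apply (t : TL) (f : Lat) :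
    latPair N t f = intCoeff N ((t : Module.End ℤ Lat) f) 1 := rfl

/-- For every `k` there is a Hecke operator `t_k` with `a₁(t_k f) = a_k(f)`. -/
theorem exists_coeff_operator (k : ℕ) :
    ∃ t : TL, ∀ f : Lat, latPair N t f = intCoeff N f k := by
  obtain ⟨T, hT⟩ := coeffFun_mem_heckeFunctionals N k
  refine ⟨CuspForm.latticeRestrictHom N ∅ T, fun f => ?_⟩
  rw [latPair_apply, intCoeff_eq_iff, ← intCoeff_spec]
  have h := LinearMap.congr_fun hT (f : CuspForm (Gamma0 N) 2)
  rw [heckePairing_apply] at h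
  exact h

/-- `L → Hom(T_L, ℤ)` is injective. -/
theorem latPair_flip_injective : Function.Injective (latPair N).flip := by
  rw [injective_iff_map_eq_zero]
  intro f hf
  apply eq_zero_of_intCoeff_eq_zero
  intro k
  obtain ⟨t, ht⟩ := exists_coeff_operator N k
  rw [← ht f]
  exact LinearMap.congr_fun hf t

/-- `T_L → Hom(L, ℤ)` is injective. -/
theorem latPair_injective : Function.Injective (latPair N) := by
  rw [injective_iff_map_eq_zero]
  intro t ht
  apply Subtype.ext
  apply LinearMap.ext
  intro f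
  apply eq_zero_of_intCoeff_eq_zero
  intro k
  obtain ⟨tk, htk⟩ := exists_coeff_operator N k
  rw [← htk]
  -- `a₁(t_k (t f)) = a₁(t (t_k f))`
  have hcomm : (tk : Module.End ℤ Lat) ((t : Module.End ℤ Lat) f) =
      (t : Module.End ℤ Lat) ((tk : Module.End ℤ Lat) f) := by
    have h := congrArg (fun s : TL => (s : Module.End ℤ Lat) f) (mul_comm tk t)
    exact h
  rw [latPair_apply, hcomm, ← latPair_apply, ht]
  rfl

/-- An injective map between free `ℤ`-modules of the same finite rank has torsion cokernel. -/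
theorem exists_smul_mem_range_of_injective {M M' : Type*} [AddCommGroup M] [AddCommGroup M']
    [Module.Finite ℤ M] [Module.Free ℤ M] [Module.Finite ℤ M'] [Module.Free ℤ M']
    (φ : M →ₗ[ℤ] M') (hφ : Function.Injective φ)
    (hrank : Module.finrank ℤ M' ≤ Module.finrank ℤ M) (x : M') :
    ∃ c : ℤ, c ≠ 0 ∧ c • x ∈ LinearMap.range φ := by
  have h1 : Module.finrank ℤ (LinearMap.range φ) = Module.finrank ℤ M :=
    LinearMap.finrank_range_of_inj hφ
  have h2 := (LinearMap.range φ).finrank_quotient_add_finrank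
  have h3 : Module.finrank ℤ (M' ⧸ LinearMap.range φ) = 0 := by omega
  have h4 := (Module.finrank_eq_zero_iff_isTorsion (R := ℤ)).mp h3
  obtain ⟨c, hc⟩ := @h4 (Submodule.Quotient.mk x)
  refine ⟨c, nonZeroDivisors.coe_ne_zero c, ?_⟩
  have : (Submodule.Quotient.mk ((c : ℤ) • x) : M' ⧸ LinearMap.range φ) = 0 := by
    rw [Submodule.Quotient.mk_smul]; exact hc
  exact (Submodule.Quotient.mk_eq_zero _).mp this

/-- **(A-2) perfectness**: every additive functional on `T_L` is `t ↦ a₁(t f)`, `f ∈ L`. -/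
theorem exists_lattice_rep (ψ : TL →ₗ[ℤ] ℤ) : ∃ f : Lat, ∀ t : TL, latPair N t f = ψ t := by
  haveI := CuspForm.intLattice.moduleFinite N
  haveI := CuspForm.intLattice.moduleFree N
  -- ranks
  have hr1 : Module.finrank ℤ TL ≤ Module.finrank ℤ Lat := by
    have := LinearMap.finrank_le_finrank_of_injective (latPair_injective N)
    rwa [Module.finrank_linearMap_self] at this
  have hr2 : Module.finrank ℤ (TL →ₗ[ℤ] ℤ) ≤ Module.finrank ℤ Lat := by
    rwa [Module.finrank_linearMap_self]
  obtain ⟨c, hc0, f, hf⟩ := exists_smul_mem_range_of_injective (latPair N).flip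
    (latPair_flip_injective N) hr2 ψ
  -- saturation: all coefficients of `f` are divisible by `c`
  have hcoeff : ∀ k, ∃ m : ℤ, intCoeff N f k = c * m := by
    intro k
    obtain ⟨t, ht⟩ := exists_coeff_operator N k
    refine ⟨ψ t, ?_⟩
    rw [← ht f]
    have := LinearMap.congr_fun hf t
    rw [LinearMap.flip_apply, LinearMap.smul_apply, smul_eq_mul] at this
    exact this
  -- divide by `c`
  set g₀ : CuspForm (Gamma0 N) 2 := ((c : ℂ)⁻¹) • (f : CuspForm (Gamma0 N) 2) with hg₀
  have hc0' : (c : ℂ) ≠ 0 := by exact_mod_cast hc0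
  have hg₀mem : g₀ ∈ CuspForm.intLattice N 2 := by
    rw [Helper8.mem_intLattice_iff]
    intro k
    obtain ⟨m, hm⟩ := hcoeff k
    refine ⟨m, ?_⟩
    rw [hg₀, Helper8.qCoeff_smul, intCoeff_spec, hm]
    push_cast
    field_simp
  have hcg : c • (⟨g₀, hg₀mem⟩ : Lat) = f := by
    apply Subtype.ext
    show c • g₀ = (f : CuspForm (Gamma0 N) 2)
    rw [hg₀, ← Int.cast_smul_eq_zsmul ℂ, smul_smul, mul_inv_cancel₀ hc0', one_smul]
  refine ⟨⟨g₀, hg₀mem⟩, fun t => ?_⟩
  have h1 := LinearMap.congr_fun hf t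
  rw [LinearMap.flip_apply, ← hcg, map_smul, LinearMap.smul_apply] at h1
  exact smul_right_injective ℤ hc0 h1

end Fermat.Agent.S16lib.Red16
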