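/-
S16 library, package A (helper5), step A-2b/A-3: a ring homomorphism `φ : T_L → ℤ/M` with the
Eisenstein values on the generators gives `f ∈ L` whose coefficients satisfy the Eisenstein
recursions modulo `M`.
-/
import Mathlib
import Fermat.Agent.S16lib.Duality

set_option autoImplicit false
set_option linter.unusedSectionVars false

noncomputable section

namespace Fermat.Agent.S16lib.Red16

open CuspForm ModularFormClass CongruenceSubgroup ModularCurve
open Fermat.Agent Fermat.Agent.ProgramR.Descent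

variable (N : ℕ) [NeZero N]

set_option quotPrecheck false in
local notation "Lat" => ↥(CuspForm.intLattice N 2)

set_option quotPrecheck false in
local notation "TL" => ↥(CuspForm.heckeLatticeAlgebra N ∅)

/-- The evaluation `ℤ[X_r] → T_L`. -/
def lamHom : HeckeAlg →+* TL :=
  (CuspForm.latticeRestrictHom N ∅).toRingHom.comp (CuspForm.heckeEvalForms N 2)

/-- The Eisenstein evaluation `ℤ[X_r] → ℤ`. -/
def epsHom : HeckeAlg →+* ℤ :=
  (MvPolynomial.aeval (R := ℤ) (eisensteinSystem N)).toRingHom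

theorem ker_epsHom : RingHom.ker (epsHom N) = eisensteinIdeal N := rfl

theorem epsHom_heckeGen (r : Nat.Primes) : epsHom N (heckeGen r) = eisensteinSystem N r :=
  MvPolynomial.aeval_X _ r

theorem lamHom_surjective : Function.Surjective (lamHom N) := by
  have h1 : Function.Surjective (CuspForm.heckeEvalForms N 2) := by
    intro t
    have ht : (t : Module.End ℂ (CuspForm (Gamma0 N) 2)) ∈
        Algebra.adjoin ℤ (CuspForm.heckeGenerators N 2 ∅) := t.2
    suffices h : ∀ x ∈ Algebra.adjoin ℤ (CuspForm.heckeGenerators N 2 ∅),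
        ∃ P : HeckeAlg, ((CuspForm.heckeEvalForms N 2 P : CuspForm.heckeAlgebra N 2 ∅) :
          Module.End ℂ (CuspForm (Gamma0 N) 2)) = x by
      obtain ⟨P, hP⟩ := h _ ht
      exact ⟨P, Subtype.ext hP⟩
    intro x hx
    induction hx using Algebra.adjoin_induction with
    | mem y hy =>
      rcases hy with ⟨ℓ, hℓ, hℓN, -, rfl⟩ | ⟨q, hqN, hq, -, rfl⟩
      · refine ⟨heckeGen ⟨ℓ, hℓ⟩, ?_⟩
        rw [CuspForm.heckeEvalForms_heckeGen_of_not_dvd (ℓ := ⟨ℓ, hℓ⟩) hℓN]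
        rfl
      · refine ⟨heckeGen ⟨q, hq⟩, ?_⟩
        rw [CuspForm.heckeEvalForms_heckeGen_of_dvd (q := ⟨q, hq⟩) hqN]
        rfl
    | algebraMap a =>
      exact ⟨MvPolynomial.C a, by rw [CuspForm.heckeEvalForms_C]; rfl⟩
    | add y z _ _ hy hz =>
      obtain ⟨P, hP⟩ := hy
      obtain ⟨Q, hQ⟩ := hz
      exact ⟨P + Q, by rw [map_add, ← hP, ← hQ]; rfl⟩
    | mul y z _ _ hy hz =>
      obtain ⟨P, hP⟩ := hy
      obtain ⟨Q, hQ⟩ := hz
      exact ⟨P * Q, by rw [map_mul, ← hP, ← hQ]; rfl⟩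
  exact (CuspForm.latticeRestrictHom_surjective N ∅).comp h1

/-- The action of `lamHom (heckeGen r)` on the lattice, for `r ∤ N`. -/
theorem coe_lamHom_heckeGen_of_not_dvd {r : ℕ} (hr : r.Prime) (hrN : ¬ r ∣ N) (f : Lat) :
    ((((lamHom N (heckeGen ⟨r, hr⟩) : TL) : Module.End ℤ Lat) f : Lat) :
      CuspForm (Gamma0 N) 2) = CuspForm.heckeTLin 2 hr hrN (f : CuspForm (Gamma0 N) 2) := by
  have h : CuspForm.heckeEvalForms N 2 (heckeGen ⟨r, hr⟩) =
      CuspForm.heckeAlgebra.T hr hrN (Set.notMem_empty _) :=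
    CuspForm.heckeEvalForms_heckeGen_of_not_dvd (ℓ := ⟨r, hr⟩) hrN
  show ((CuspForm.heckeEvalForms N 2 (heckeGen ⟨r, hr⟩) : CuspForm.heckeAlgebra N 2 ∅) :
    Module.End ℂ (CuspForm (Gamma0 N) 2)) (f : CuspForm (Gamma0 N) 2) = _
  rw [h]
  rfl

/-- The action of `lamHom (heckeGen q)` on the lattice, for `q ∣ N`. -/
theorem coe_lamHom_heckeGen_of_dvd {q : ℕ} (hq : q.Prime) (hqN : q ∣ N) (f : Lat) :
    ((((lamHom N (heckeGen ⟨q, hq⟩) : TL) : Module.End ℤ Lat) f : Lat) :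
      CuspForm (Gamma0 N) 2) = CuspForm.heckeULin 2 hqN (f : CuspForm (Gamma0 N) 2) := by
  have h : CuspForm.heckeEvalForms N 2 (heckeGen ⟨q, hq⟩) =
      CuspForm.heckeAlgebra.U hq hqN (Set.notMem_empty _) :=
    CuspForm.heckeEvalForms_heckeGen_of_dvd (q := ⟨q, hq⟩) hqN
  show ((CuspForm.heckeEvalForms N 2 (heckeGen ⟨q, hq⟩) : CuspForm.heckeAlgebra N 2 ∅) :
    Module.End ℂ (CuspForm (Gamma0 N) 2)) (f : CuspForm (Gamma0 N) 2) = _
  rw [h]
  rfl

/-- Integer coefficients of `T_r f`, `r ∤ N`. -/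
theorem intCoeff_lamHom_heckeGen_of_not_dvd {r : ℕ} (hr : r.Prime) (hrN : ¬ r ∣ N) (f : Lat)
    (k : ℕ) :
    intCoeff N (((lamHom N (heckeGen ⟨r, hr⟩) : TL) : Module.End ℤ Lat) f) k =
      intCoeff N f (k * r) + if r ∣ k then (r : ℤ) * intCoeff N f (k / r) else 0 := by
  rw [intCoeff_eq_iff, coe_lamHom_heckeGen_of_not_dvd N hr hrN, Helper8.qCoeff_heckeTLin,
    ModularForm.coeffHeckeT_apply, intCoeff_spec]
  split_ifs with h
  · rw [intCoeff_spec]; push_cast; norm_num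
  · push_cast; ring

/-- Integer coefficients of `U_q f`, `q ∣ N`. -/
theorem intCoeff_lamHom_heckeGen_of_dvd {q : ℕ} (hq : q.Prime) (hqN : q ∣ N) (f : Lat)
    (k : ℕ) :
    intCoeff N (((lamHom N (heckeGen ⟨q, hq⟩) : TL) : Module.End ℤ Lat) f) k =
      intCoeff N f (k * q) := by
  rw [intCoeff_eq_iff, coe_lamHom_heckeGen_of_dvd N hq hqN, Helper8.qCoeff_heckeULin hq,
    ModularForm.coeffHeckeU_apply, intCoeff_spec]

/-- **(A-2b)** A ring homomorphism `φ : T_L → ℤ/M` with the Eisenstein values on the generators is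
represented by a lattice element which is a normalised Eisenstein eigenvector modulo `M`. -/
theorem exists_form_of_ringHom (M : ℕ) (φ : TL →+* ZMod M)
    (hφ : ∀ P, φ (lamHom N P) = ((epsHom N P : ℤ) : ZMod M)) :
    ∃ f : Lat, ((intCoeff N f 1 : ℤ) : ZMod M) = 1 ∧
      (∀ r : ℕ, r.Prime → ¬ r ∣ N → ∀ k : ℕ,
        ((intCoeff N f (k * r) + (if r ∣ k then (r : ℤ) * intCoeff N f (k / r) else 0) : ℤ) :
          ZMod M) = ((1 + (r : ℤ) : ℤ) : ZMod M) * ((intCoeff N f k : ℤ) : ZMod M)) ∧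
      (∀ q : ℕ, q.Prime → q ∣ N → ∀ k : ℕ,
        ((intCoeff N f (k * q) : ℤ) : ZMod M) = ((intCoeff N f k : ℤ) : ZMod M)) := by
  -- lift `φ` to an additive map `ψ : T_L → ℤ`
  obtain ⟨ψ, hψ⟩ := Module.projective_lifting_property
    (Int.castAddHom (ZMod M)).toIntLinearMap φ.toAddMonoidHom.toIntLinearMap
    (ZMod.intCast_surjective)
  have hψ' : ∀ t : TL, ((ψ t : ℤ) : ZMod M) = φ t := fun t => LinearMap.congr_fun hψ t
  obtain ⟨f, hf⟩ := exists_lattice_rep N ψ
  -- the key formula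
  have key : ∀ (t : TL) (k : ℕ),
      ((intCoeff N ((t : Module.End ℤ Lat) f) k : ℤ) : ZMod M) =
        φ t * ((intCoeff N f k : ℤ) : ZMod M) := by
    intro t k
    obtain ⟨tk, htk⟩ := exists_coeff_operator N k
    have h1 : intCoeff N ((t : Module.End ℤ Lat) f) k = ψ (tk * t) := by
      rw [← htk, ← hf (tk * t), latPair_apply, latPair_apply]
      rfl
    have h2 : intCoeff N f k = ψ tk := by rw [← htk, hf]
    rw [h1, h2, hψ', hψ', map_mul, mul_comm]
  refine ⟨f, ?_, ?_, ?_⟩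
  · have h1 : intCoeff N f 1 = ψ 1 := by
      rw [← hf 1, latPair_apply]; rfl
    rw [h1, hψ', map_one]
  · intro r hr hrN k
    have h := key (lamHom N (heckeGen ⟨r, hr⟩)) k
    rw [intCoeff_lamHom_heckeGen_of_not_dvd N hr hrN, hφ, epsHom_heckeGen,
      eisensteinSystem_of_not_dvd (ℓ := ⟨r, hr⟩) hrN] at h
    exact h
  · intro q hq hqN k
    have h := key (lamHom N (heckeGen ⟨q, hq⟩)) k
    rw [intCoeff_lamHom_heckeGen_of_dvd N hq hqN, hφ, epsHom_heckeGen,
      eisensteinSystem_of_dvd (ℓ := ⟨q, hq⟩) hqN] at h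
    simpa using h

end Fermat.Agent.S16lib.Red16
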