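/-
S16 library, package A (helper5): linearity of the Prelude's `qCoeff` on `ModularForm (Gamma0 N) k`.
-/
import Mathlib
import Fermat.Prelude.Def_FLTPrelim_Modularity
import Fermat.Agent.Helper8.QCoeff

set_option autoImplicit false

namespace Fermat.Agent.S16lib.Red16

open UpperHalfPlane ModularFormClass CongruenceSubgroup Fermat.Agent

noncomputable section

variable {N : ℕ} {k : ℤ}

theorem mf_qCoeff_add (f g : ModularForm (Gamma0 N) k) (n : ℕ) :
    qCoeff ⇑(f + g) n = qCoeff ⇑f n + qCoeff ⇑g n := by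
  simp only [qCoeff, FunLike.coe_add]
  rw [ModularForm.qExpansion_add one_pos (Helper8.one_mem_strictPeriods N) f g, map_add]

theorem mf_qCoeff_sub (f g : ModularForm (Gamma0 N) k) (n : ℕ) :
    qCoeff ⇑(f - g) n = qCoeff ⇑f n - qCoeff ⇑g n := by
  simp only [qCoeff, FunLike.coe_sub]
  rw [ModularForm.qExpansion_sub one_pos (Helper8.one_mem_strictPeriods N) f g, map_sub]

theorem mf_qCoeff_smul (c : ℂ) (f : ModularForm (Gamma0 N) k) (n : ℕ) :
    qCoeff ⇑(c • f) n = c * qCoeff ⇑f n := by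
  have h1 : ⇑(c • f) = c • ⇑f := by
    ext z
    simp
  simp only [qCoeff, h1]
  rw [ModularForm.qExpansion_smul one_pos (Helper8.one_mem_strictPeriods N) c f]
  simp

theorem mf_qCoeff_coe_cuspForm (f : CuspForm (Gamma0 N) k) (n : ℕ) :
    qCoeff ⇑(CuspForm.toModularFormₗ f) n = qCoeff ⇑f n := rfl

end

end Fermat.Agent.S16lib.Red16
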