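/-
S16 library, package A (helper5): the arithmetic function `σ'(k) = ∑_{d ∣ k, p ∤ d} d`, in the
form `σ(k) - p σ(k/p)`, and its Hecke recursions.
-/
import Mathlib

set_option autoImplicit false

namespace Fermat.Agent.S16lib.Red16

open ArithmeticFunction

/-- `σ'(k) = σ(k) - p σ(k/p)` (second term only if `p ∣ k`): the coefficients of the weight-2
Eisenstein series of level `p`. -/
def sigmaP (p k : ℕ) : ℤ :=
  (sigma 1 k : ℤ) - if p ∣ k then (p : ℤ) * (sigma 1 (k / p) : ℤ) else 0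

theorem sigmaP_one {p : ℕ} (hp : p.Prime) : sigmaP p 1 = 1 := by
  have : ¬ p ∣ 1 := hp.one_lt.ne' ∘ Nat.dvd_one.mp
  simp [sigmaP, this]

/-- The Hecke recursion of `σ`. -/
theorem sigma_one_mul_prime {r : ℕ} (hr : r.Prime) (k : ℕ) (hk : k ≠ 0) :
    (sigma 1 (k * r) : ℤ) + (if r ∣ k then (r : ℤ) * (sigma 1 (k / r) : ℤ) else 0) =
      (1 + (r : ℤ)) * (sigma 1 k : ℤ) := by
  obtain ⟨e, m, hm, rfl⟩ := Nat.exists_eq_pow_mul_and_not_dvd hk r hr.ne_one
  have hcop : ∀ i, Nat.Coprime (r ^ i) m := fun i =>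
    Nat.Coprime.pow_left i ((Nat.Prime.coprime_iff_not_dvd hr).mpr hm)
  have hgeom : ∀ i : ℕ, (sigma 1 (r ^ i) : ℤ) = ∑ j ∈ Finset.range (i + 1), (r : ℤ) ^ j := by
    intro i
    rw [sigma_one_apply_prime_pow hr]
    push_cast
    rfl
  have h1 : r ^ e * m * r = r ^ (e + 1) * m := by ring
  rw [h1, isMultiplicative_sigma.map_mul_of_coprime (hcop (e + 1)),
    isMultiplicative_sigma.map_mul_of_coprime (hcop e)]
  rcases Nat.eq_zero_or_pos e with he | he
  · subst he
    have hnd : ¬ r ∣ r ^ 0 * m := by simpa using hm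
    rw [if_neg hnd]
    push_cast
    rw [hgeom, hgeom]
    simp [Finset.sum_range_succ]
  · have hd : r ∣ r ^ e * m := Dvd.dvd.mul_right (dvd_pow_self r he.ne') m
    rw [if_pos hd]
    have h2 : r ^ e * m / r = r ^ (e - 1) * m := by
      have : r ^ e * m = r * (r ^ (e - 1) * m) := by
        rw [← mul_assoc, ← pow_succ', Nat.sub_add_cancel he]
      rw [this, Nat.mul_div_cancel_left _ hr.pos]
    rw [h2, isMultiplicative_sigma.map_mul_of_coprime (hcop (e - 1))]
    push_cast
    rw [hgeom, hgeom, hgeom]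
    obtain ⟨e', rfl⟩ : ∃ e', e = e' + 1 := ⟨e - 1, (Nat.sub_add_cancel he).symm⟩
    simp only [Nat.add_sub_cancel]
    rw [Finset.sum_range_succ _ (e' + 1 + 1), Finset.sum_range_succ _ (e' + 1)]
    ring

/-- Recursion of `σ'` at a prime `r ≠ p`. -/
theorem sigmaP_mul_prime {p r : ℕ} (hp : p.Prime) (hr : r.Prime) (hrp : r ≠ p) (k : ℕ)
    (hk : k ≠ 0) :
    sigmaP p (k * r) + (if r ∣ k then (r : ℤ) * sigmaP p (k / r) else 0) =
      (1 + (r : ℤ)) * sigmaP p k := by
  have hpr : ∀ m : ℕ, p ∣ m * r ↔ p ∣ m := by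
    intro m
    constructor
    · intro h
      rcases (Nat.Prime.dvd_mul hp).mp h with h | h
      · exact h
      · exact absurd ((Nat.prime_dvd_prime_iff_eq hp hr).mp h).symm hrp
    · exact fun h => Dvd.dvd.mul_right h r
  unfold sigmaP
  by_cases hpk : p ∣ k
  · obtain ⟨k', rfl⟩ := hpk
    have hk' : k' ≠ 0 := by rintro rfl; simp at hk
    have e1 : p * k' * r / p = k' * r := by
      rw [mul_assoc, Nat.mul_div_cancel_left _ hp.pos]
    have e2 : p * k' / p = k' := Nat.mul_div_cancel_left _ hp.pos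
    have hrk : r ∣ p * k' ↔ r ∣ k' := by
      constructor
      · intro h
        rcases (Nat.Prime.dvd_mul hr).mp h with h | h
        · exact absurd ((Nat.prime_dvd_prime_iff_eq hr hp).mp h) hrp
        · exact h
      · exact fun h => Dvd.dvd.mul_left h p
    rw [if_pos ((hpr _).mpr (dvd_mul_right p k')), if_pos (dvd_mul_right p k'), e1, e2]
    have H1 := sigma_one_mul_prime hr (p * k') hk
    have H2 := sigma_one_mul_prime hr k' hk'
    by_cases hrk' : r ∣ k'
    · obtain ⟨k'', rfl⟩ := hrk'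
      have e3 : p * (r * k'') / r = p * k'' := by
        rw [mul_left_comm, Nat.mul_div_cancel_left _ hr.pos]
      have e4 : r * k'' / r = k'' := Nat.mul_div_cancel_left _ hr.pos
      have e5 : p * k'' / p = k'' := Nat.mul_div_cancel_left _ hp.pos
      rw [if_pos (hrk.mpr (dvd_mul_right r k'')), e3] at H1 ⊢
      rw [if_pos (dvd_mul_right r k''), e4] at H2
      rw [if_pos (dvd_mul_right p k''), e5]
      linear_combination H1 - (p : ℤ) * H2
    · rw [if_neg (fun h => hrk' (hrk.mp h))] at H1 ⊢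
      rw [if_neg hrk'] at H2
      linear_combination H1 - (p : ℤ) * H2
  · rw [if_neg (fun h => hpk ((hpr _).mp h)), if_neg hpk]
    have H1 := sigma_one_mul_prime hr k hk
    by_cases hrk : r ∣ k
    · have hpkr : ¬ p ∣ k / r := fun h => hpk (h.trans (Nat.div_dvd_of_dvd hrk))
      rw [if_pos hrk] at H1 ⊢
      rw [if_neg hpkr]
      linear_combination H1
    · rw [if_neg hrk] at H1 ⊢
      linear_combination H1

/-- Recursion of `σ'` at `p`. -/
theorem sigmaP_mul_self {p : ℕ} (hp : p.Prime) (k : ℕ) (hk : k ≠ 0) :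
    sigmaP p (k * p) = sigmaP p k := by
  unfold sigmaP
  have H1 := sigma_one_mul_prime hp k hk
  rw [if_pos (dvd_mul_left p k), Nat.mul_div_cancel _ hp.pos]
  by_cases hpk : p ∣ k
  · rw [if_pos hpk] at H1 ⊢
    linear_combination H1
  · rw [if_neg hpk] at H1 ⊢
    linear_combination H1

/-- A sequence which is a normalised Eisenstein eigenvector modulo `M` is congruent to `σ'`. -/
theorem coeff_congr_sigmaP {p : ℕ} (hp : p.Prime) (M : ℕ) (a : ℕ → ℤ)
    (h1 : ((a 1 : ℤ) : ZMod M) = 1)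
    (hT : ∀ r : ℕ, r.Prime → r ≠ p → ∀ k : ℕ,
      ((a (k * r) + (if r ∣ k then (r : ℤ) * a (k / r) else 0) : ℤ) : ZMod M) =
        ((1 + (r : ℤ) : ℤ) : ZMod M) * ((a k : ℤ) : ZMod M))
    (hU : ∀ k : ℕ, ((a (k * p) : ℤ) : ZMod M) = ((a k : ℤ) : ZMod M)) :
    ∀ k : ℕ, 1 ≤ k → ((a k : ℤ) : ZMod M) = ((sigmaP p k : ℤ) : ZMod M) := by
  intro k
  induction k using Nat.strong_induction_on with
  | _ k ih =>
    intro hk
    rcases Nat.eq_or_lt_of_le hk with hk1 | hk1
    · rw [← hk1, h1, sigmaP_one hp]; simp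
    · obtain ⟨r, hr, hrk⟩ := Nat.exists_prime_and_dvd (Nat.ne_of_gt hk1)
      obtain ⟨k₀, rfl⟩ := hrk
      have hk₀ : k₀ ≠ 0 := by rintro rfl; simp at hk
      have hk₀1 : 1 ≤ k₀ := Nat.one_le_iff_ne_zero.mpr hk₀
      have hlt : k₀ < r * k₀ := by
        have := hr.one_lt
        nlinarith
      rw [mul_comm r k₀]
      by_cases hrp : r = p
      · subst hrp
        rw [hU k₀, ih k₀ hlt hk₀1, sigmaP_mul_self hr k₀ hk₀]
      · have H := hT r hr hrp k₀
        have S := sigmaP_mul_prime hp hr hrp k₀ hk₀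
        have S' : ((sigmaP p (k₀ * r) + (if r ∣ k₀ then (r : ℤ) * sigmaP p (k₀ / r) else 0) : ℤ) :
            ZMod M) = (((1 + (r : ℤ)) * sigmaP p k₀ : ℤ) : ZMod M) := by rw [S]
        rw [ih k₀ hlt hk₀1] at H
        by_cases hd : r ∣ k₀
        · rw [if_pos hd] at H S'
          have hpos : 1 ≤ k₀ / r := Nat.div_pos (Nat.le_of_dvd (Nat.pos_of_ne_zero hk₀) hd) hr.pos
          have hlt' : k₀ / r < r * k₀ := lt_of_le_of_lt (Nat.div_le_self _ _) hlt
          have I := ih (k₀ / r) hlt' hpos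
          push_cast at H S' ⊢
          rw [I] at H
          have : ((a (k₀ * r) : ℤ) : ZMod M) = ((sigmaP p (k₀ * r) : ℤ) : ZMod M) := by
            have e1 : ((a (k₀ * r) : ℤ) : ZMod M) =
                (1 + (r : ZMod M)) * ((sigmaP p k₀ : ℤ) : ZMod M) -
                  (r : ZMod M) * ((sigmaP p (k₀ / r) : ℤ) : ZMod M) := by
              rw [← H]; ring
            have e2 : ((sigmaP p (k₀ * r) : ℤ) : ZMod M) =
                (1 + (r : ZMod M)) * ((sigmaP p k₀ : ℤ) : ZMod M) -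
                  (r : ZMod M) * ((sigmaP p (k₀ / r) : ℤ) : ZMod M) := by
              rw [← S']; ring
            rw [e1, e2]
          exact_mod_cast this
        · rw [if_neg hd] at H S'
          push_cast at H S' ⊢
          have : ((a (k₀ * r) : ℤ) : ZMod M) = ((sigmaP p (k₀ * r) : ℤ) : ZMod M) := by
            have e1 : ((a (k₀ * r) : ℤ) : ZMod M) =
                (1 + (r : ZMod M)) * ((sigmaP p k₀ : ℤ) : ZMod M) := by
              rw [← H]; ring
            have e2 : ((sigmaP p (k₀ * r) : ℤ) : ZMod M) =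
                (1 + (r : ZMod M)) * ((sigmaP p k₀ : ℤ) : ZMod M) := by
              rw [← S']; ring
            rw [e1, e2]
          exact_mod_cast this

end Fermat.Agent.S16lib.Red16
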