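/-
S16 library, package A (helper5), step A-3/A-4: the upper bound.
From the Eisenstein series `E'`, the non-existence theorems `NoUnitConst p ℓ e` (MT1–MT5) and a ring
homomorphism `φ : T_L → ℤ/ℓ^s` with Eisenstein values: `ℓ^s ∣ eisensteinNumerator p`.
-/
import Mathlib
import Fermat.Prelude.Def_ModularCurve_ModularUnit
import Fermat.Agent.S16lib.SigmaP
import Fermat.Agent.S16lib.EisCongruence
import Fermat.Agent.S16lib.QCoeffMF

set_option autoImplicit false
set_option linter.unusedSectionVars false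

noncomputable section

namespace Fermat.Agent.S16lib.Red16

open CuspForm ModularFormClass CongruenceSubgroup ModularCurve
open Fermat.Agent

/-- There is no weight-2 form on `Γ₀(p)` with integer coefficients, constant term prime to `ℓ` and
all higher coefficients divisible by `ℓ^e`. -/
def NoUnitConst (p ℓ e : ℕ) : Prop :=
  ∀ G : ModularForm (Gamma0 p) 2, (∀ k, ∃ m : ℤ, qCoeff G k = (m : ℂ)) →
    (∀ m : ℤ, qCoeff G 0 = (m : ℂ) → ¬ (ℓ : ℤ) ∣ m) →
    (∀ k, 1 ≤ k → ∃ m : ℤ, qCoeff G k = ((ℓ : ℂ) ^ e) * (m : ℂ)) → False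

/-- The Eisenstein series of weight 2 and level `p` exists. -/
def HasEisenstein (p : ℕ) : Prop :=
  ∃ E : ModularForm (Gamma0 p) 2, qCoeff E 0 = ((p : ℂ) - 1) / 24 ∧
    ∀ k, 1 ≤ k → qCoeff E k = ((sigmaP p k : ℤ) : ℂ)

variable (p : ℕ) [hp : Fact p.Prime]

instance : NeZero p := ⟨hp.out.ne_zero⟩

set_option quotPrecheck false in
local notation "Lat" => ↥(CuspForm.intLattice p 2)

set_option quotPrecheck false in
local notation "TL" => ↥(CuspForm.heckeLatticeAlgebra p ∅)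

/-- **(A-3)** the coefficients of the form attached to `φ`. -/
theorem exists_form_congr_sigmaP (M : ℕ) (φ : TL →+* ZMod M)
    (hφ : ∀ P, φ (lamHom p P) = ((epsHom p P : ℤ) : ZMod M)) :
    ∃ f : Lat, ∀ k, 1 ≤ k → ((intCoeff p f k : ℤ) : ZMod M) = ((sigmaP p k : ℤ) : ZMod M) := by
  obtain ⟨f, h1, hT, hU⟩ := exists_form_of_ringHom p M φ hφ
  refine ⟨f, coeff_congr_sigmaP hp.out M (intCoeff p f) h1 ?_ ?_⟩
  · intro r hr hrp k
    exact hT r hr (fun h => hrp ((Nat.prime_dvd_prime_iff_eq hr hp.out).mp h)) k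
  · intro k
    exact hU p hp.out dvd_rfl k

/-- **(A-4), analytic half**: the valuation bound. `24 = ℓ^u * c24`. -/
theorem pow_dvd_pred_of_noUnitConst (hE : HasEisenstein p) {ℓ e u c24 s : ℕ} (hℓ : ℓ.Prime)
    (h24 : 24 = ℓ ^ u * c24) (hMT : NoUnitConst p ℓ e) (f : Lat)
    (hf : ∀ k, 1 ≤ k → ((intCoeff p f k : ℤ) : ZMod (ℓ ^ s)) = ((sigmaP p k : ℤ) : ZMod (ℓ ^ s))) :
    ℓ ^ (s + u + 1 - e) ∣ p - 1 := by
  obtain ⟨E, hE0, hEk⟩ := hE
  have hp1 : p - 1 ≠ 0 := by have := hp.out.two_le; omega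
  set w := padicValNat ℓ (p - 1) with hw
  have : Fact ℓ.Prime := ⟨hℓ⟩
  have hwdvd : ℓ ^ w ∣ p - 1 := pow_padicValNat_dvd
  by_cases hle : s + u + 1 - e ≤ w
  · exact (pow_dvd_pow ℓ hle).trans hwdvd
  exfalso
  have hlt : w + e ≤ s + u := by omega
  obtain ⟨A, hA⟩ := hwdvd
  have hAnd : ¬ ℓ ∣ A := by
    intro h
    obtain ⟨A', rfl⟩ := h
    have : ℓ ^ (w + 1) ∣ p - 1 := ⟨A', by rw [hA]; ring⟩
    exact pow_succ_padicValNat_not_dvd hp1 this
  -- the differences `σ'(k) - a_k(f)` are divisible by `ℓ^s`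
  have hdiv : ∀ k, 1 ≤ k → ∃ m : ℤ, sigmaP p k - intCoeff p f k = (ℓ : ℤ) ^ s * m := by
    intro k hk
    have h := hf k hk
    have h2 : ((sigmaP p k - intCoeff p f k : ℤ) : ZMod (ℓ ^ s)) = 0 := by
      push_cast; rw [h]; ring
    rw [ZMod.intCast_zmod_eq_zero_iff_dvd] at h2
    obtain ⟨m, hm⟩ := h2
    exact ⟨m, by rw [hm]; push_cast; ring⟩
  have hℓ0 : (ℓ : ℂ) ≠ 0 := by exact_mod_cast hℓ.ne_zero
  -- the form `G = 24 (E' - f) / ℓ^w`
  set G : ModularForm (Gamma0 p) 2 :=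
    ((24 : ℂ) * ((ℓ : ℂ) ^ w)⁻¹) • (E - CuspForm.toModularFormₗ (f : CuspForm (Gamma0 p) 2))
    with hG
  have hGcoeff : ∀ k, qCoeff G k = (24 : ℂ) * ((ℓ : ℂ) ^ w)⁻¹ *
      (qCoeff E k - (intCoeff p f k : ℂ)) := by
    intro k
    rw [hG, mf_qCoeff_smul, mf_qCoeff_sub, mf_qCoeff_coe_cuspForm, intCoeff_spec]
  have hG0 : qCoeff G 0 = (A : ℂ) := by
    rw [hGcoeff, hE0, intCoeff_zero]
    have hpc : ((p : ℂ) - 1) = ((p - 1 : ℕ) : ℂ) := by
      rw [Nat.cast_sub hp.out.one_le]; simp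
    rw [hpc, hA]
    push_cast
    field_simp
    ring
  have hGk : ∀ k, 1 ≤ k → ∃ m : ℤ, qCoeff G k = ((ℓ : ℂ) ^ e) * (m : ℂ) := by
    intro k hk
    obtain ⟨m, hm⟩ := hdiv k hk
    refine ⟨(ℓ : ℤ) ^ (s + u - (w + e)) * c24 * m, ?_⟩
    rw [hGcoeff, hEk k hk]
    have h1 : ((sigmaP p k : ℤ) : ℂ) - (intCoeff p f k : ℂ) = ((ℓ : ℂ) ^ s) * (m : ℂ) := by
      have := congrArg (fun z : ℤ => (z : ℂ)) hm
      simpa using this
    rw [h1]
    have h2 : (24 : ℂ) = (ℓ : ℂ) ^ u * (c24 : ℂ) := by exact_mod_cast h24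
    rw [h2]
    have h3 : (ℓ : ℂ) ^ u * (ℓ : ℂ) ^ s = (ℓ : ℂ) ^ w * (ℓ : ℂ) ^ e * (ℓ : ℂ) ^ (s + u - (w + e)) := by
      rw [← pow_add, ← pow_add, ← pow_add]
      congr 1
      omega
    push_cast
    field_simp
    linear_combination (c24 : ℂ) * (m : ℂ) * h3
  refine hMT G ?_ ?_ hGk
  · intro k
    rcases Nat.eq_zero_or_pos k with rfl | hk
    · exact ⟨A, by rw [hG0]; simp⟩
    · obtain ⟨m, hm⟩ := hGk k hk
      exact ⟨(ℓ : ℤ) ^ e * m, by rw [hm]; push_cast; ring⟩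
  · intro m hm hdvd
    rw [hG0] at hm
    have : (A : ℤ) = m := by exact_mod_cast hm
    rw [← this] at hdvd
    exact hAnd (by exact_mod_cast hdvd)

/-- The non-existence theorems MT1–MT5 in the shape consumed by the upper bound. -/
structure MTHyps (p : ℕ) : Prop where
  mt_ge5 : ∀ ℓ : ℕ, ℓ.Prime → 5 ≤ ℓ → NoUnitConst p ℓ 1
  mt3_1 : p % 3 = 1 → NoUnitConst p 3 1
  mt3_2 : p % 3 = 2 → NoUnitConst p 3 2
  mt2_1 : p % 4 = 1 → NoUnitConst p 2 2
  mt2_3 : p % 4 = 3 → NoUnitConst p 2 3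

omit hp in
/-- Arithmetic helper: `x ∣ A / gcd(A,12)` from `gcd(A,12) = c * g₁`, `x * c ∣ A`, `x * c ⊥ g₁`. -/
theorem dvd_div_gcd_of {A x c g₁ : ℕ} (hg : Nat.gcd A 12 = c * g₁) (hx : x * c ∣ A)
    (hcop : Nat.Coprime (x * c) g₁) : x ∣ A / Nat.gcd A 12 := by
  apply Nat.dvd_div_of_mul_dvd
  have hg₁ : g₁ ∣ A := (Dvd.intro_left c hg.symm).trans (Nat.gcd_dvd_left A 12)
  have := Nat.Coprime.mul_dvd_of_dvd_of_dvd hcop hx hg₁
  rw [hg]
  convert this using 1
  ring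

/-- **(UB)** the upper bound, from `E'` and MT1–MT5. -/
theorem upper_bound (hp5 : 5 ≤ p) (hE : HasEisenstein p) (hMT : MTHyps p) (ℓ s : ℕ)
    (hℓ : ℓ.Prime) (φ : TL →+* ZMod (ℓ ^ s))
    (hφ : ∀ P, φ (lamHom p P) = ((epsHom p P : ℤ) : ZMod (ℓ ^ s))) :
    ℓ ^ s ∣ eisensteinNumerator p := by
  obtain ⟨f, hf⟩ := exists_form_congr_sigmaP p (ℓ ^ s) φ hφ
  unfold eisensteinNumerator
  have hg12 : Nat.gcd (p - 1) 12 ∣ 12 := Nat.gcd_dvd_right _ _
  have hgA : Nat.gcd (p - 1) 12 ∣ p - 1 := Nat.gcd_dvd_left _ _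
  have hp3 : p % 3 = 1 ∨ p % 3 = 2 := by
    have h3 : ¬ 3 ∣ p := fun h => by
      have := (Nat.prime_dvd_prime_iff_eq Nat.prime_three hp.out).mp h
      omega
    omega
  have hp4 : p % 4 = 1 ∨ p % 4 = 3 := by
    have h2 : ¬ 2 ∣ p := fun h => by
      have := (Nat.prime_dvd_prime_iff_eq Nat.prime_two hp.out).mp h
      omega
    omega
  rcases Nat.lt_or_ge ℓ 5 with hlt | hge
  · have hℓ23 : ℓ = 2 ∨ ℓ = 3 := by
      have := hℓ.two_le
      interval_cases ℓ
      · exact Or.inl rfl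
      · exact Or.inr rfl
      · exact absurd hℓ (by decide)
    rcases hℓ23 with rfl | rfl
    · -- ℓ = 2
      rcases hp4 with h1 | h3
      · have h := pow_dvd_pred_of_noUnitConst p hE (u := 3) (c24 := 3) Nat.prime_two (by norm_num)
          (hMT.mt2_1 h1) f hf
        have e1 : s + 3 + 1 - 2 = s + 2 := by omega
        rw [e1] at h
        have h4g : 4 ∣ Nat.gcd (p - 1) 12 := Nat.dvd_gcd (by omega) (by norm_num)
        obtain ⟨g₁, hg₁⟩ := h4g
        refine dvd_div_gcd_of (c := 4) (g₁ := g₁) hg₁ (by rw [pow_add] at h; exact h) ?_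
        have hg₁3 : g₁ ∣ 3 := by
          rw [hg₁] at hg12
          exact Nat.dvd_of_mul_dvd_mul_left (by norm_num : 0 < 4) (by simpa using hg12)
        have : Nat.Coprime (2 ^ s * 4) 3 := by
          rw [show 2 ^ s * 4 = 2 ^ (s + 2) by ring]
          exact Nat.Coprime.pow_left _ (by decide)
        exact Nat.Coprime.coprime_dvd_right hg₁3 this
      · have h := pow_dvd_pred_of_noUnitConst p hE (u := 3) (c24 := 3) Nat.prime_two (by norm_num)
          (hMT.mt2_3 h3) f hf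
        have e1 : s + 3 + 1 - 3 = s + 1 := by omega
        rw [e1] at h
        have hs : s = 0 := by
          by_contra hs
          have : 2 ^ 2 ∣ 2 ^ (s + 1) := pow_dvd_pow 2 (by omega)
          have h4 : 4 ∣ p - 1 := by simpa using this.trans h
          omega
        subst hs
        simp
    · -- ℓ = 3
      rcases hp3 with h1 | h2
      · have h := pow_dvd_pred_of_noUnitConst p hE (u := 1) (c24 := 8) Nat.prime_three
          (by norm_num) (hMT.mt3_1 h1) f hf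
        have e1 : s + 1 + 1 - 1 = s + 1 := by omega
        rw [e1] at h
        have h3g : 3 ∣ Nat.gcd (p - 1) 12 := Nat.dvd_gcd (by omega) (by norm_num)
        obtain ⟨g₁, hg₁⟩ := h3g
        refine dvd_div_gcd_of (c := 3) (g₁ := g₁) hg₁ (by rw [pow_add] at h; simpa using h) ?_
        have hg₁4 : g₁ ∣ 4 := by
          rw [hg₁] at hg12
          exact Nat.dvd_of_mul_dvd_mul_left (by norm_num : 0 < 3) (by simpa using hg12)
        have : Nat.Coprime (3 ^ s * 3) 4 := by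
          rw [show 3 ^ s * 3 = 3 ^ (s + 1) by ring]
          exact Nat.Coprime.pow_left _ (by decide)
        exact Nat.Coprime.coprime_dvd_right hg₁4 this
      · have h := pow_dvd_pred_of_noUnitConst p hE (u := 1) (c24 := 8) Nat.prime_three
          (by norm_num) (hMT.mt3_2 h2) f hf
        have e1 : s + 1 + 1 - 2 = s := by omega
        rw [e1] at h
        have hs : s = 0 := by
          by_contra hs
          have : 3 ^ 1 ∣ 3 ^ s := pow_dvd_pow 3 (by omega)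
          have h3 : 3 ∣ p - 1 := by simpa using this.trans h
          omega
        subst hs
        simp
  · -- ℓ ≥ 5
    have h := pow_dvd_pred_of_noUnitConst p hE (u := 0) (c24 := 24) hℓ (by norm_num)
      (hMT.mt_ge5 ℓ hℓ hge) f hf
    have e1 : s + 0 + 1 - 1 = s := by omega
    rw [e1] at h
    refine dvd_div_gcd_of (c := 1) (g₁ := Nat.gcd (p - 1) 12) (by ring) (by simpa using h) ?_
    have hc12 : Nat.Coprime ℓ 12 := by
      rw [Nat.Prime.coprime_iff_not_dvd hℓ]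
      intro hd
      have h12 : (12 : ℕ) = 2 ^ 2 * 3 := by norm_num
      rw [h12] at hd
      rcases (Nat.Prime.dvd_mul hℓ).mp hd with h' | h'
      · have := (Nat.prime_dvd_prime_iff_eq hℓ Nat.prime_two).mp (hℓ.dvd_of_dvd_pow h')
        omega
      · have := (Nat.prime_dvd_prime_iff_eq hℓ Nat.prime_three).mp h'
        omega
    rw [mul_one]
    exact Nat.Coprime.coprime_dvd_right hg12 (Nat.Coprime.pow_left _ hc12)

end Fermat.Agent.S16lib.Red16
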