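/-
S16 library, package A (helper5), step A-5: the statement of S16 from its bricks:
`E'` (package E), MT1–MT5 (packages M1–M5), the lower bound (packages LG/LH), and the vanishing of
`S₂(Γ₀(p))` for `p < 5`.
-/
import Mathlib
import Fermat.Agent.S23
import Fermat.Agent.S16lib.CardQuot
import Fermat.Agent.S16lib.UpperBound

set_option autoImplicit false
set_option linter.unusedSectionVars false

noncomputable section

namespace Fermat.Agent.S16lib.Red16

open CuspForm ModularFormClass CongruenceSubgroup ModularCurve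
open Fermat.Agent

variable (p : ℕ) [hp : Fact p.Prime]

theorem eisensteinNumerator_ne_zero : eisensteinNumerator p ≠ 0 := by
  unfold eisensteinNumerator
  have h1 : 0 < p - 1 := by have := hp.out.two_le; omega
  have hg : Nat.gcd (p - 1) 12 ∣ p - 1 := Nat.gcd_dvd_left _ _
  exact (Nat.div_pos (Nat.le_of_dvd h1 hg) (Nat.gcd_pos_of_pos_left _ h1)).ne'

/-- `lamHom p P = 0` means that `P` kills all weight-2 cusp forms. -/
theorem heckeEvalForms_eq_zero_of_lamHom_eq_zero (P : HeckeAlg) (h : lamHom p P = 0) :
    CuspForm.heckeEvalForms p 2 P = 0 := by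
  have hinj := (CuspForm.latticeRestrictHom_bijective p ∅ (S23.result p)).1
  apply hinj
  rw [map_zero]
  exact h

/-- **S16 from its bricks.** -/
theorem card_quotient_eisensteinIdeal
    (hsmall : p < 5 → Subsingleton (CuspForm (Gamma0 p) 2))
    (hE : 5 ≤ p → HasEisenstein p) (hMT : 5 ≤ p → MTHyps p)
    (hLB : ∀ P : HeckeAlg, CuspForm.heckeEvalForms p 2 P = 0 →
      ((eisensteinNumerator p : ℕ) : ℤ) ∣ MvPolynomial.aeval (R := ℤ) (eisensteinSystem p) P) :
    Nat.card (↥(CuspForm.heckeLatticeAlgebra p ∅) ⧸
        Ideal.map ((CuspForm.latticeRestrictHom p ∅).toRingHom.comp (CuspForm.heckeEvalForms p 2))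
          (eisensteinIdeal p)) =
      eisensteinNumerator p := by
  rcases Nat.lt_or_ge p 5 with hlt | hge
  · -- `S₂(Γ₀(p)) = 0`
    haveI := hsmall hlt
    haveI : Subsingleton ↥(CuspForm.intLattice p 2) :=
      ⟨fun a b => Subtype.ext (Subsingleton.elim _ _)⟩
    haveI : Subsingleton (Module.End ℤ ↥(CuspForm.intLattice p 2)) :=
      ⟨fun a b => LinearMap.ext fun x => Subsingleton.elim _ _⟩
    haveI : Subsingleton ↥(CuspForm.heckeLatticeAlgebra p ∅) :=
      ⟨fun a b => Subtype.ext (Subsingleton.elim _ _)⟩
    have hn : eisensteinNumerator p = 1 := by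
      have h2 := hp.out.two_le
      have hp' := hp.out
      interval_cases p
      · decide
      · decide
      · exact absurd hp' (by decide)
    rw [hn]
    exact Nat.card_unique
  · exact card_quot_map_ker_eq (lamHom p) (lamHom_surjective p) (epsHom p) (eisensteinNumerator p)
      (eisensteinNumerator_ne_zero p)
      (fun P hP => hLB P (heckeEvalForms_eq_zero_of_lamHom_eq_zero p P hP))
      (fun ℓ s hℓ φ hφ => upper_bound p hge (hE hge) (hMT hge) ℓ s hℓ φ hφ)

end Fermat.Agent.S16lib.Red16
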