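/-
S16 (Eisenstein ideal index), package M1 (helper3), algebraic endgame of MT1:
over a field `κ`, the polynomial `(X - c) (X - u)^p` (`c ≠ 0`, `p ≥ 2`) cannot have all its
elementary symmetric functions `e_i` vanish for `m ∤ i` when `κ` contains an element of exact
multiplicative order `m ≥ 2`.
-/
import Mathlib

set_option autoImplicit false

namespace Fermat.Agent.S16lib.M1

open Polynomial

variable {κ : Type*} [Field κ]

/-- If `(X - c)(X - u)^p` is invariant (up to the scalar `ζ^(p+1)`) under `X ↦ ζ X` with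
`ζ ≠ 1`, `c ≠ 0`, `p ≥ 2`, we get a contradiction. -/
theorem false_of_comp_eq (c u ζ : κ) (hc : c ≠ 0) (hζ1 : ζ ≠ 1) (hζ0 : ζ ≠ 0) (p : ℕ) (hp : 2 ≤ p)
    (h : ((X - C c) * (X - C u) ^ p : κ[X]).comp (C ζ * X) =
      C (ζ ^ (p + 1)) * ((X - C c) * (X - C u) ^ p)) : False := by
  -- rewrite the left side
  have hlin : ∀ a : κ, (X - C a : κ[X]).comp (C ζ * X) = C ζ * (X - C (ζ⁻¹ * a)) := by
    intro a
    rw [sub_comp, X_comp, C_comp, mul_sub, ← C_mul, ← mul_assoc, mul_inv_cancel₀ hζ0, one_mul]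
  rw [mul_comp, pow_comp, hlin, hlin, mul_pow, ← C_pow] at h
  have h' : C (ζ ^ (p + 1)) * ((X - C (ζ⁻¹ * c)) * (X - C (ζ⁻¹ * u)) ^ p) =
      C (ζ ^ (p + 1)) * ((X - C c) * (X - C u) ^ p) := by
    rw [← h, pow_succ, C_mul]; ring
  have hζp : (C (ζ ^ (p + 1)) : κ[X]) ≠ 0 := by
    rw [Ne, C_eq_zero]; exact pow_ne_zero _ hζ0
  have key : (X - C (ζ⁻¹ * c)) * (X - C (ζ⁻¹ * u)) ^ p = (X - C c) * (X - C u) ^ p :=
    mul_left_cancel₀ hζp h'
  -- evaluate at `ζ⁻¹ c`
  have hne : ζ⁻¹ * c ≠ c := by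
    intro h1
    have : ζ⁻¹ = 1 := by
      have := mul_right_cancel₀ hc (h1.trans (one_mul c).symm)
      exact this
    exact hζ1 (inv_eq_one.mp this)
  have e1 := congrArg (eval (ζ⁻¹ * c)) key
  simp only [eval_mul, eval_sub, eval_X, eval_C, eval_pow, sub_self, zero_mul] at e1
  have e1' := e1.symm
  rcases mul_eq_zero.mp e1' with h1 | h1
  · exact hne (sub_eq_zero.mp h1)
  have hu : ζ⁻¹ * c = u := sub_eq_zero.mp (pow_eq_zero_iff (by omega) |>.mp h1)
  -- now `u = ζ⁻¹ c`; cancel `X - C u`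
  have hp1 : p = (p - 1) + 1 := by omega
  rw [hu] at key
  have key2 : (X - C (ζ⁻¹ * u)) ^ p = (X - C c) * (X - C u) ^ (p - 1) := by
    have h2 : (X - C u) * (X - C (ζ⁻¹ * u)) ^ p = (X - C u) * ((X - C c) * (X - C u) ^ (p - 1)) := by
      rw [key]
      conv_lhs => rw [hp1, pow_succ]
      ring
    exact mul_left_cancel₀ (X_sub_C_ne_zero u) h2
  have e2 := congrArg (eval u) key2
  simp only [eval_mul, eval_sub, eval_X, eval_C, eval_pow, sub_self] at e2
  rw [zero_pow (by omega), mul_zero] at e2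
  have h3 : u - ζ⁻¹ * u = 0 := pow_eq_zero_iff (by omega) |>.mp e2
  have h4 : u = 0 := by
    have : (1 - ζ⁻¹) * u = 0 := by rw [sub_mul, one_mul]; exact h3
    rcases mul_eq_zero.mp this with h5 | h5
    · exact absurd (inv_eq_one.mp (sub_eq_zero.mp h5).symm) hζ1
    · exact h5
  rw [h4] at hu
  rcases mul_eq_zero.mp hu with h5 | h5
  · exact inv_ne_zero hζ0 h5
  · exact hc h5

/-- MT1 endgame: the elementary symmetric functions of `c, u, …, u` (`p` copies of `u`) cannot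
all vanish outside the multiples of `m` if `κ` has an element of order `m ≥ 2`. -/
theorem false_of_esymm (c u ζ : κ) (hc : c ≠ 0) (m : ℕ) (hm : 0 < m) (hζm : ζ ^ m = 1)
    (hζ1 : ζ ≠ 1) (p : ℕ) (hp : 2 ≤ p)
    (h : ∀ i, (c ::ₘ Multiset.replicate p u).esymm i ≠ 0 → m ∣ i) : False := by
  have hζ0 : ζ ≠ 0 := by
    rintro rfl
    rw [zero_pow hm.ne'] at hζm; exact zero_ne_one hζm
  set s : Multiset κ := c ::ₘ Multiset.replicate p u with hs
  have hcard : Multiset.card s = p + 1 := by simp [hs]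
  have hprod : (s.map fun t => X - C t).prod = (X - C c) * (X - C u) ^ p := by
    simp [hs, Multiset.map_replicate, Multiset.prod_replicate]
  have hsum := Multiset.prod_X_sub_X_eq_sum_esymm s
  rw [hprod, hcard] at hsum
  refine false_of_comp_eq c u ζ hc hζ1 hζ0 p hp ?_
  rw [hsum, Finset.mul_sum]
  rw [Polynomial.sum_comp]
  refine Finset.sum_congr rfl fun j hj => ?_
  have hj' : j ≤ p + 1 := by
    have := Finset.mem_range.mp hj; omega
  by_cases h0 : s.esymm j = 0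
  · simp [h0]
  obtain ⟨d, rfl⟩ := h j h0
  have hζj : ζ ^ (m * d) = 1 := by rw [pow_mul, hζm, one_pow]
  have hpow : ζ ^ (p + 1 - m * d) = ζ ^ (p + 1) := by
    have : ζ ^ (p + 1) = ζ ^ (p + 1 - m * d) * ζ ^ (m * d) := by
      rw [← pow_add, Nat.sub_add_cancel hj']
    rw [this, hζj, mul_one]
  simp only [mul_comp, pow_comp, neg_comp, one_comp, C_comp, X_comp]
  rw [mul_pow, ← C_pow, hpow]
  ring

end Fermat.Agent.S16lib.M1
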