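/-
S16 package M1 (helper3): the ring `A` of `ℓ`-integral algebraic numbers inside `ℂ`, a maximal
ideal `𝔪 ∋ ℓ` and the residue field `κ = A ⧸ 𝔪` (characteristic `ℓ`).
-/
import Mathlib

set_option autoImplicit false

noncomputable section

namespace Fermat.Agent.S16lib.M1

/-- The ring of `ℓ`-integral algebraic numbers: `x ∈ ℂ` such that `b x` is an algebraic integer
for some integer `b` prime to `ℓ`. -/
def ellIntegers (ℓ : ℕ) [hℓ : Fact ℓ.Prime] : Subring ℂ where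
  carrier := {x | ∃ b : ℤ, ¬ (ℓ : ℤ) ∣ b ∧ IsIntegral ℤ ((b : ℂ) * x)}
  mul_mem' := by
    rintro x y ⟨b, hb, hx⟩ ⟨b', hb', hy⟩
    refine ⟨b * b', ?_, ?_⟩
    · intro h
      rcases (Nat.prime_iff_prime_int.mp hℓ.out).dvd_or_dvd h with h | h
      · exact hb h
      · exact hb' h
    · have heq : ((b * b' : ℤ) : ℂ) * (x * y) = ((b : ℂ) * x) * ((b' : ℂ) * y) := by
        push_cast; ring
      rw [heq]
      exact hx.mul hy
  one_mem' := ⟨1, by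
    intro h
    have := Int.natAbs_dvd_natAbs.mpr h
    simp at this
    exact hℓ.out.one_lt.ne' this, by simpa using isIntegral_one⟩
  add_mem' := by
    rintro x y ⟨b, hb, hx⟩ ⟨b', hb', hy⟩
    refine ⟨b * b', ?_, ?_⟩
    · intro h
      rcases (Nat.prime_iff_prime_int.mp hℓ.out).dvd_or_dvd h with h | h
      · exact hb h
      · exact hb' h
    · have h1 : IsIntegral ℤ ((b' : ℂ) * ((b : ℂ) * x)) := (isIntegral_algebraMap (x := b')).mul hx
      have h2 : IsIntegral ℤ ((b : ℂ) * ((b' : ℂ) * y)) := (isIntegral_algebraMap (x := b)).mul hy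
      have heq : ((b * b' : ℤ) : ℂ) * (x + y) =
          (b' : ℂ) * ((b : ℂ) * x) + (b : ℂ) * ((b' : ℂ) * y) := by
        push_cast; ring
      rw [heq]
      exact h1.add h2
  zero_mem' := ⟨1, by
    intro h
    have := Int.natAbs_dvd_natAbs.mpr h
    simp at this
    exact hℓ.out.one_lt.ne' this, by simpa using isIntegral_zero⟩
  neg_mem' := by
    rintro x ⟨b, hb, hx⟩
    refine ⟨b, hb, ?_⟩
    have heq : (b : ℂ) * (-x) = -((b : ℂ) * x) := by ring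
    rw [heq]
    exact hx.neg

variable (ℓ : ℕ) [hℓ : Fact ℓ.Prime]

lemma mem_ellIntegers {x : ℂ} :
    x ∈ ellIntegers ℓ ↔ ∃ b : ℤ, ¬ (ℓ : ℤ) ∣ b ∧ IsIntegral ℤ ((b : ℂ) * x) := Iff.rfl

lemma isIntegral_mem_ellIntegers {x : ℂ} (hx : IsIntegral ℤ x) : x ∈ ellIntegers ℓ :=
  ⟨1, by
    intro h
    have := Int.natAbs_dvd_natAbs.mpr h
    simp at this
    exact hℓ.out.one_lt.ne' this, by simpa using hx⟩

/-- roots of unity are in `A` -/
lemma pow_eq_one_mem_ellIntegers {x : ℂ} {n : ℕ} (hn : 0 < n) (hx : x ^ n = 1) :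
    x ∈ ellIntegers ℓ :=
  isIntegral_mem_ellIntegers ℓ (IsIntegral.of_pow hn (hx ▸ isIntegral_one))

/-- `1/b ∈ A` for `b` prime to `ℓ` -/
lemma inv_intCast_mem_ellIntegers {b : ℤ} (hb : ¬ (ℓ : ℤ) ∣ b) : ((b : ℂ))⁻¹ ∈ ellIntegers ℓ := by
  refine ⟨b, hb, ?_⟩
  have hb0 : (b : ℂ) ≠ 0 := by
    intro h
    apply hb
    have : b = 0 := by exact_mod_cast h
    rw [this]; exact dvd_zero _
  rw [mul_inv_cancel₀ hb0]
  exact isIntegral_one

lemma inv_natCast_mem_ellIntegers {n : ℕ} (hn : ¬ ℓ ∣ n) : ((n : ℂ))⁻¹ ∈ ellIntegers ℓ := by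
  have := inv_intCast_mem_ellIntegers ℓ (b := (n : ℤ)) (by exact_mod_cast hn)
  simpa using this

/-- `1/ℓ ∉ A`. -/
lemma inv_ell_not_mem_ellIntegers : ((ℓ : ℂ))⁻¹ ∉ ellIntegers ℓ := by
  rintro ⟨b, hb, hx⟩
  apply hb
  have h1 : (b : ℂ) * ((ℓ : ℂ))⁻¹ = algebraMap ℚ ℂ ((b : ℚ) / (ℓ : ℚ)) := by
    simp [div_eq_mul_inv]
  rw [h1, isIntegral_algebraMap_iff (algebraMap ℚ ℂ).injective,
    IsIntegrallyClosed.isIntegral_iff] at hx
  obtain ⟨y, hy⟩ := hx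
  have hℓ0 : (ℓ : ℚ) ≠ 0 := by exact_mod_cast hℓ.out.ne_zero
  have : (b : ℚ) = (ℓ : ℚ) * (y : ℚ) := by
    have : (y : ℚ) = (b : ℚ) / (ℓ : ℚ) := by simpa using hy
    rw [this]; field_simp
  refine ⟨y, ?_⟩
  exact_mod_cast this

/-- `ℓ` is not a unit of `A`. -/
lemma not_isUnit_ell : ¬ IsUnit ((ℓ : ℕ) : ellIntegers ℓ) := by
  rintro ⟨u, hu⟩
  apply inv_ell_not_mem_ellIntegers ℓ
  have h1 : ((u⁻¹ : (ellIntegers ℓ)ˣ) : ellIntegers ℓ) * ((ℓ : ℕ) : ellIntegers ℓ) = 1 := by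
    rw [← hu]; exact u.inv_mul
  have h2 : (((u⁻¹ : (ellIntegers ℓ)ˣ) : ellIntegers ℓ) : ℂ) * (ℓ : ℂ) = 1 := by
    have := congrArg (Subtype.val) h1
    simpa using this
  have hℓ0 : (ℓ : ℂ) ≠ 0 := by exact_mod_cast hℓ.out.ne_zero
  have h3 : ((ℓ : ℂ))⁻¹ = (((u⁻¹ : (ellIntegers ℓ)ˣ) : ellIntegers ℓ) : ℂ) := by
    field_simp
    rw [mul_comm, h2]
  rw [h3]
  exact Subtype.property _

/-- a maximal ideal of `A` containing `ℓ` -/
def ellMaximal : Ideal (ellIntegers ℓ) :=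
  (Ideal.exists_le_maximal (Ideal.span {((ℓ : ℕ) : ellIntegers ℓ)})
    (fun h => not_isUnit_ell ℓ (Ideal.span_singleton_eq_top.mp h))).choose

instance ellMaximal_isMaximal : (ellMaximal ℓ).IsMaximal :=
  (Ideal.exists_le_maximal (Ideal.span {((ℓ : ℕ) : ellIntegers ℓ)})
    (fun h => not_isUnit_ell ℓ (Ideal.span_singleton_eq_top.mp h))).choose_spec.1

lemma ell_mem_ellMaximal : ((ℓ : ℕ) : ellIntegers ℓ) ∈ ellMaximal ℓ :=
  (Ideal.exists_le_maximal (Ideal.span {((ℓ : ℕ) : ellIntegers ℓ)})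
    (fun h => not_isUnit_ell ℓ (Ideal.span_singleton_eq_top.mp h))).choose_spec.2
    (Ideal.subset_span rfl)

/-- the residue field `κ = A ⧸ 𝔪` -/
abbrev ellResidue : Type := ellIntegers ℓ ⧸ ellMaximal ℓ

instance : Field (ellResidue ℓ) := Ideal.Quotient.field (ellMaximal ℓ)

instance ellResidue_charP : CharP (ellResidue ℓ) ℓ := by
  rw [CharP.charP_iff_prime_eq_zero hℓ.out]
  have := ell_mem_ellMaximal ℓ
  rw [← Ideal.Quotient.eq_zero_iff_mem] at this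
  simpa using this

/-- the reduction map `A → κ` -/
def ellRed : ellIntegers ℓ →+* ellResidue ℓ := Ideal.Quotient.mk (ellMaximal ℓ)

lemma ellRed_eq_zero_iff (x : ellIntegers ℓ) : ellRed ℓ x = 0 ↔ x ∈ ellMaximal ℓ :=
  Ideal.Quotient.eq_zero_iff_mem

lemma ellRed_intCast_ne_zero {c : ℤ} (hc : ¬ (ℓ : ℤ) ∣ c) : ellRed ℓ (c : ellIntegers ℓ) ≠ 0 := by
  rw [map_intCast]
  intro h
  apply hc
  exact (CharP.intCast_eq_zero_iff (ellResidue ℓ) ℓ c).mp h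

/-- For `ℓ ≥ 5` there is `ζ ∈ κ` with `ζ^((ℓ-1)/2) = 1`, `ζ ≠ 1`. -/
lemma exists_zeta (h5 : 5 ≤ ℓ) :
    ∃ ζ : ellResidue ℓ, ζ ^ ((ℓ - 1) / 2) = 1 ∧ ζ ≠ 1 := by
  obtain ⟨g, hg⟩ := IsCyclic.exists_generator (α := (ZMod ℓ)ˣ)
  have hord : orderOf g = ℓ - 1 := by
    rw [orderOf_eq_card_of_forall_mem_zpowers hg, Nat.card_eq_fintype_card, ZMod.card_units_eq_totient,
      Nat.totient_prime hℓ.out]
  have hodd : ℓ % 2 = 1 := by
    rcases hℓ.out.eq_two_or_odd with h | h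
    · omega
    · exact h
  set φ : ZMod ℓ →+* ellResidue ℓ := ZMod.castHom (dvd_refl ℓ) (ellResidue ℓ) with hφ
  refine ⟨φ ((g : ZMod ℓ) ^ 2), ?_, ?_⟩
  · rw [← map_pow, ← pow_mul]
    have : 2 * ((ℓ - 1) / 2) = ℓ - 1 := by omega
    rw [this]
    have h1 : g ^ (ℓ - 1) = 1 := by rw [← hord]; exact pow_orderOf_eq_one g
    have h2 : ((g : ZMod ℓ)) ^ (ℓ - 1) = 1 := by
      have := congrArg (Units.val) h1
      simpa using this
    rw [h2, map_one]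
  · intro h
    have h1 : (g : ZMod ℓ) ^ 2 = 1 := by
      apply φ.injective
      rw [h, map_one]
    have h2 : g ^ 2 = 1 := by
      apply Units.ext
      simpa using h1
    have := orderOf_dvd_of_pow_eq_one h2
    rw [hord] at this
    have := Nat.le_of_dvd (by norm_num) this
    omega

end Fermat.Agent.S16lib.M1
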