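/-
S16 package M1 (helper3): algebraic glue between the `t`-expansion package TX, the
Swinnerton-Dyer constancy theorem and the root-multiset endgame.
-/
import Mathlib
import Fermat.Agent.S16lib.M1Alg
import Fermat.Agent.S16lib.M1Ring

set_option autoImplicit false

noncomputable section

namespace Fermat.Agent.S16lib.M1

open PowerSeries

/-- ring homomorphisms commute with elementary symmetric functions of multisets -/
lemma map_multiset_esymm' {R S : Type*} [CommSemiring R] [CommSemiring S] (f : R →+* S)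
    (s : Multiset R) (n : ℕ) : f (s.esymm n) = (s.map f).esymm n := by
  unfold Multiset.esymm
  rw [map_multiset_sum, Multiset.powersetCard_map, Multiset.map_map, Multiset.map_map]
  congr 1
  apply Multiset.map_congr rfl
  intro t _
  simp [map_multiset_prod]

/-- the multiset of values of a function on `Option (Fin p)` which is constant on `some _`. -/
lemma map_univ_option_fin {κ : Type*} (p : ℕ) (v : Option (Fin p) → κ) (c u : κ)
    (h0 : v none = c) (h1 : ∀ j, v (some j) = u) :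
    (Finset.univ : Finset (Option (Fin p))).val.map v = c ::ₘ Multiset.replicate p u := by
  have hval : (Finset.univ : Finset (Option (Fin p))).val =
      none ::ₘ (Finset.univ : Finset (Fin p)).val.map some := rfl
  rw [hval, Multiset.map_cons, h0, Multiset.map_map]
  congr 1
  rw [Multiset.eq_replicate]
  constructor
  · simp
  · intro b hb
    rw [Multiset.mem_map] at hb
    obtain ⟨j, _, rfl⟩ := hb
    exact h1 j

open scoped MatrixGroups in
/-- **MT1, abstract core.**  `P x` are the `t`-expansions (over `A = ellIntegers ℓ`) of the `p+1`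
conjugates, congruent to the constants `c` (for `x = none`) resp. `u` modulo `𝔪`; `e i` is the
level-one form whose `q`-expansion is read off from the `i`-th elementary symmetric function of
the `P x`; `hswd` is the Swinnerton-Dyer constancy theorem. -/
theorem mt1_core (p ℓ : ℕ) [hp : Fact p.Prime] [hℓ : Fact ℓ.Prime] (h5 : 5 ≤ ℓ)
    (P : Option (Fin p) → PowerSeries (ellIntegers ℓ))
    (c u : ellIntegers ℓ) (hc : ellRed ℓ c ≠ 0)
    (hP0 : (P none).map (ellRed ℓ) = C (ellRed ℓ c))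
    (hP1 : ∀ j, (P (some j)).map (ellRed ℓ) = C (ellRed ℓ u))
    (w : ℕ → ℤ) (hw : ∀ i, w i = 2 * (i : ℤ))
    (e : ∀ i : ℕ, ModularForm 𝒮ℒ (w i))
    (he : ∀ i n, (UpperHalfPlane.qExpansion 1 (e i)).coeff n =
      ((coeff (p * n) ((Finset.univ.val.map P).esymm i) : ellIntegers ℓ) : ℂ))
    (hswd : ∀ {k : ℤ} (f : ModularForm 𝒮ℒ k) (a : PowerSeries (ellIntegers ℓ)),
      a.map (ellIntegers ℓ).subtype = UpperHalfPlane.qExpansion 1 f →
      ellRed ℓ (coeff 0 a) ≠ 0 → (∀ n, 1 ≤ n → ellRed ℓ (coeff n a) = 0) →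
      ((ℓ : ℤ) - 1) ∣ k) : False := by
  obtain ⟨ζ, hζm, hζ1⟩ := exists_zeta ℓ h5
  have hodd : ℓ % 2 = 1 := by
    rcases hℓ.out.eq_two_or_odd with h | h
    · omega
    · exact h
  have hm : 0 < (ℓ - 1) / 2 := by omega
  refine false_of_esymm (ellRed ℓ c) (ellRed ℓ u) ζ hc ((ℓ - 1) / 2) hm hζm hζ1 p
    hp.out.two_le ?_
  intro i hi
  set E := (Finset.univ.val.map P).esymm i with hE
  have key : E.map (ellRed ℓ) =
      C ((ellRed ℓ c ::ₘ Multiset.replicate p (ellRed ℓ u)).esymm i) := by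
    have h1 := map_multiset_esymm' (PowerSeries.map (ellRed ℓ)) (Finset.univ.val.map P) i
    rw [Multiset.map_map] at h1
    rw [hE, h1, map_univ_option_fin p _ (C (ellRed ℓ c)) (C (ellRed ℓ u)) hP0 hP1,
      map_multiset_esymm' (C : ellResidue ℓ →+* PowerSeries (ellResidue ℓ)), Multiset.map_cons,
      Multiset.map_replicate]
  have hdiv : ((ℓ : ℤ) - 1) ∣ w i := by
    refine hswd (e i) (PowerSeries.mk fun n => coeff (p * n) E) ?_ ?_ ?_
    · ext n
      rw [he i n, coeff_map, coeff_mk]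
      rfl
    · rw [coeff_mk, mul_zero, ← coeff_map, key, coeff_zero_C]
      exact hi
    · intro n hn
      rw [coeff_mk, ← coeff_map, key, coeff_C, if_neg]
      have := hp.out.pos
      positivity
  rw [hw i] at hdiv
  have h2 : ((ℓ : ℤ) - 1) = 2 * (((ℓ - 1) / 2 : ℕ) : ℤ) := by
    omega
  rw [h2] at hdiv
  have := (mul_dvd_mul_iff_left (by norm_num : (2 : ℤ) ≠ 0)).mp hdiv
  exact_mod_cast this

/-! ### The explicit `t`-expansions of the conjugates -/

section explicit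

variable (p ℓ : ℕ) [hp : Fact p.Prime] [hℓ : Fact ℓ.Prime]

/-- `ζ_p = exp(2πi/p)` as an element of `A`. -/
def zetaA : ellIntegers ℓ :=
  ⟨Complex.exp (2 * Real.pi * Complex.I / p), pow_eq_one_mem_ellIntegers ℓ hp.out.pos (by
    rw [← Complex.exp_nat_mul]
    have hp0 : (p : ℂ) ≠ 0 := by exact_mod_cast hp.out.ne_zero
    rw [show (p : ℂ) * (2 * Real.pi * Complex.I / p) = 2 * Real.pi * Complex.I by field_simp]
    exact Complex.exp_two_pi_mul_I)⟩

lemma coe_zetaA : ((zetaA p ℓ : ellIntegers ℓ) : ℂ) = Complex.exp (2 * Real.pi * Complex.I / p) :=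
  rfl

/-- `1/p` as an element of `A` (for `ℓ ≠ p`). -/
def pInvA (hℓp : ℓ ≠ p) : ellIntegers ℓ :=
  ⟨((p : ℂ))⁻¹, inv_natCast_mem_ellIntegers ℓ (fun h =>
    hℓp ((Nat.prime_dvd_prime_iff_eq hℓ.out hp.out).mp h))⟩

lemma coe_pInvA (hℓp : ℓ ≠ p) : ((pInvA p ℓ hℓp : ellIntegers ℓ) : ℂ) = ((p : ℂ))⁻¹ := rfl

variable (a : ℕ → ℤ)

/-- the `t`-expansion of `G` itself: `∑ a_n t^(pn)` -/
def tExpInf : PowerSeries (ellIntegers ℓ) :=
  PowerSeries.mk fun m => if p ∣ m then ((a (m / p) : ℤ) : ellIntegers ℓ) else 0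

/-- the `t`-expansion of the conjugate `G ∣ ST^j`: `p⁻¹ ∑ (-a_{np}) ζ^{jn} t^n` -/
def tExpConj (hℓp : ℓ ≠ p) (j : Fin p) : PowerSeries (ellIntegers ℓ) :=
  PowerSeries.mk fun n =>
    pInvA p ℓ hℓp * (-((a (n * p) : ℤ) : ellIntegers ℓ)) * zetaA p ℓ ^ (j.val * n)

lemma ellRed_intCast_eq_zero {m : ℤ} (h : (ℓ : ℤ) ∣ m) : ellRed ℓ ((m : ℤ) : ellIntegers ℓ) = 0 := by
  rw [map_intCast]
  exact (CharP.intCast_eq_zero_iff (ellResidue ℓ) ℓ m).mpr h

lemma map_tExpInf (ha : ∀ k, 1 ≤ k → (ℓ : ℤ) ∣ a k) :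
    (tExpInf p ℓ a).map (ellRed ℓ) = C (ellRed ℓ ((a 0 : ℤ) : ellIntegers ℓ)) := by
  ext m
  rw [coeff_map, tExpInf, coeff_mk, coeff_C]
  rcases eq_or_ne m 0 with rfl | hm
  · simp
  · rw [if_neg hm]
    split_ifs with hpm
    · obtain ⟨k, rfl⟩ := hpm
      rw [Nat.mul_div_cancel_left k hp.out.pos]
      apply ellRed_intCast_eq_zero
      apply ha
      rcases Nat.eq_zero_or_pos k with rfl | hk
      · simp at hm
      · exact hk
    · exact map_zero _

lemma map_tExpConj (hℓp : ℓ ≠ p) (ha : ∀ k, 1 ≤ k → (ℓ : ℤ) ∣ a k) (j : Fin p) :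
    (tExpConj p ℓ a hℓp j).map (ellRed ℓ) =
      C (ellRed ℓ (pInvA p ℓ hℓp * (-((a 0 : ℤ) : ellIntegers ℓ)))) := by
  ext n
  rw [coeff_map, tExpConj, coeff_mk, coeff_C]
  rcases eq_or_ne n 0 with rfl | hn
  · simp
  · rw [if_neg hn, map_mul, map_mul, map_neg, ellRed_intCast_eq_zero ℓ (ha _ ?_)]
    · simp
    · exact Nat.mul_pos (Nat.pos_of_ne_zero hn) hp.out.pos

end explicit

end Fermat.Agent.S16lib.M1
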