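/-
S16 package M1 (helper3): **MT1**.  For primes `ℓ ≥ 5`, `ℓ ≠ p` there is no weight-2 form on
`Γ₀(p)` with integer coefficients, constant term prime to `ℓ` and all higher coefficients
divisible by `ℓ`.

Proof: the elementary symmetric functions `e_i` of the `p+1` conjugates are level-one forms of
weight `2i` whose `q`-expansions have coefficients in `A = ellIntegers ℓ` and are congruent to the
constants `e_i(c, u, …, u)` modulo a maximal ideal `𝔪 ∋ ℓ` (package TX).  By Swinnerton-Dyer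
(`swd_const`), `e_i(c̄, ū, …, ū) ≠ 0` forces `(ℓ-1)/2 ∣ i`; the root-multiset argument
(`false_of_esymm`) shows this is impossible.
-/
import Fermat.Agent.S16lib.M1Alg
import Fermat.Agent.S16lib.M1Glue
import Fermat.Agent.S16lib.TX.Integral
import Fermat.Agent.S16lib.SwDBridge.SwDConst
import Fermat.Agent.S16lib.Op.Weight2
import Fermat.Agent.S16lib.UpperBound

set_option autoImplicit false

noncomputable section

namespace Fermat.Agent.S16lib.M1

open PowerSeries CongruenceSubgroup ModularFormClass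
open scoped MatrixGroups

theorem mt1 (p ℓ : ℕ) [hp : Fact p.Prime] [hℓ : Fact ℓ.Prime] (h5 : 5 ≤ ℓ) (hℓp : ℓ ≠ p) :
    Red16.NoUnitConst p ℓ 1 := by
  intro G hint h0 hk
  -- the integer coefficient sequence
  choose a ha using hint
  have hc : ¬ (ℓ : ℤ) ∣ a 0 := h0 (a 0) (ha 0)
  have hdiv : ∀ k, 1 ≤ k → (ℓ : ℤ) ∣ a k := by
    intro k hk1
    obtain ⟨m, hm⟩ := hk k hk1
    refine ⟨m, ?_⟩
    have : ((a k : ℤ) : ℂ) = (((ℓ : ℤ) * m : ℤ) : ℂ) := by
      rw [← ha k, hm]; push_cast; ring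
    exact_mod_cast this
  -- the data over `A`
  set A := ellIntegers ℓ with hA
  set aA : ℕ → A := fun n => ((a n : ℤ) : A) with haA
  set bA : ℕ → A := fun n => -((a (n * p) : ℤ) : A) with hbA
  have hζ : ((zetaA p ℓ : A) : ℂ) = TX.zetaP p := rfl
  have hpk : ((pInvA p ℓ hℓp : A) : ℂ) = (p : ℂ) ^ (1 - (2 : ℤ)) := by
    rw [coe_pInvA]
    norm_num
  have haq : ∀ n, (UpperHalfPlane.qExpansion 1 ⇑G).coeff n = aA n := by
    intro n
    have := ha n
    rw [ModularFormClass.qCoeff] at this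
    rw [this]
    simp [haA]
  have hbq : ∀ n, (UpperHalfPlane.qExpansion 1 ⇑(Op.wSlash p G)).coeff n = bA n := by
    intro n
    have h1 := Op.qCoeff_wSlash p G n
    rw [ModularFormClass.qCoeff, ModularFormClass.qCoeff] at h1
    rw [h1]
    have := ha (n * p)
    rw [ModularFormClass.qCoeff] at this
    rw [this]
    simp [hbA]
  have hared : ∀ n, 0 < n → ellRed ℓ (aA n) = 0 := fun n hn =>
    ellRed_intCast_eq_zero ℓ (hdiv n hn)
  have hbred : ∀ n, 0 < n → ellRed ℓ (bA n) = 0 := fun n hn => by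
    rw [hbA, map_neg, ellRed_intCast_eq_zero ℓ (hdiv (n * p) (Nat.mul_pos hn hp.out.pos)), neg_zero]
  -- the endgame
  obtain ⟨ζ, hζm, hζ1⟩ := exists_zeta ℓ h5
  have hodd : ℓ % 2 = 1 := by
    rcases hℓ.out.eq_two_or_odd with h | h
    · omega
    · exact h
  have hm : 0 < (ℓ - 1) / 2 := by omega
  refine false_of_esymm (ellRed ℓ (aA 0)) (ellRed ℓ (pInvA p ℓ hℓp) * ellRed ℓ (bA 0)) ζ
    (ellRed_intCast_ne_zero ℓ hc) ((ℓ - 1) / 2) hm hζm hζ1 p hp.out.two_le ?_
  intro i hi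
  have hq := TX.qExpansion_one_esymmForm_conjSeries p G A (zetaA p ℓ) (pInvA p ℓ hℓp) aA bA hζ hpk
    haq hbq i
  have hred := TX.esymmSeries_conjSeries_map p (ellRed ℓ) (zetaA p ℓ) (pInvA p ℓ hℓp) aA bA
    hared hbred i
  have hdvd : ((ℓ : ℤ) - 1) ∣ (2 : ℤ) * (i : ℤ) := by
    refine SwDBridge.swd_const h5 A (fun _ hn' => inv_natCast_mem_ellIntegers ℓ hn') (ellRed ℓ)
      (TX.esymmForm p G i) (TX.esymmSeries p (TX.conjSeries p (zetaA p ℓ) (pInvA p ℓ hℓp) aA bA) i)
      hq.symm ?_ ?_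
    · rw [← coeff_map, hred, coeff_zero_C]
      exact hi
    · intro n hn
      rw [← coeff_map, hred, coeff_C, if_neg (by omega)]
  have h2 : ((ℓ : ℤ) - 1) = 2 * (((ℓ - 1) / 2 : ℕ) : ℤ) := by omega
  rw [h2] at hdvd
  have := (mul_dvd_mul_iff_left (by norm_num : (2 : ℤ) ≠ 0)).mp hdvd
  exact_mod_cast this

end Fermat.Agent.S16lib.M1
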