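/-
S16 library, package A (helper5): `S₂(Γ₀(p)) = 0` for `p ∈ {2, 3}` from the dimension formula S20.
-/
import Mathlib
import Fermat.Agent.S20
import Fermat.Agent.ProgramR.ES.Assembly

set_option autoImplicit false

namespace Fermat.Agent.S16lib.Red16

open ModularCurve CongruenceSubgroup

theorem dedekindPsi_two : dedekindPsi 2 = 3 := by
  have h : (2 : ℕ).divisors = {1, 2} := by decide
  rw [dedekindPsi, h, Finset.filter_true_of_mem]
  · simp
  · intro d hd
    simp only [Finset.mem_insert, Finset.mem_singleton] at hd
    rcases hd with rfl | rfl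
    · exact squarefree_one
    · exact Nat.prime_two.squarefree

theorem dedekindPsi_three : dedekindPsi 3 = 4 := by
  have h : (3 : ℕ).divisors = {1, 3} := by decide
  rw [dedekindPsi, h, Finset.filter_true_of_mem]
  · simp
  · intro d hd
    simp only [Finset.mem_insert, Finset.mem_singleton] at hd
    rcases hd with rfl | rfl
    · exact squarefree_one
    · exact Nat.prime_three.squarefree

theorem genusFormula_two : genusFormula 2 = 0 := by
  unfold genusFormula nuTwo nuThree
  have h1 : Nat.card {x : ZMod 2 // x ^ 2 + 1 = 0} = 1 := by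
    rw [Nat.card_eq_fintype_card]; decide
  have h2 : Nat.card {x : ZMod 2 // x ^ 2 + x + 1 = 0} = 0 := by
    rw [Nat.card_eq_fintype_card]; decide
  have h3 : cuspCount 2 = 2 := by decide
  rw [h1, h2, h3, dedekindPsi_two]; norm_num

theorem genusFormula_three : genusFormula 3 = 0 := by
  unfold genusFormula nuTwo nuThree
  have h1 : Nat.card {x : ZMod 3 // x ^ 2 + 1 = 0} = 0 := by
    rw [Nat.card_eq_fintype_card]; decide
  have h2 : Nat.card {x : ZMod 3 // x ^ 2 + x + 1 = 0} = 1 := by
    rw [Nat.card_eq_fintype_card]; decide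
  have h3 : cuspCount 3 = 2 := by decide
  rw [h1, h2, h3, dedekindPsi_three]; norm_num

/-- There are no weight-2 cusp forms on `Γ₀(p)` for a prime `p < 5`. -/
theorem subsingleton_cuspForm_of_lt_five (p : ℕ) [hp : Fact p.Prime] (h : p < 5) :
    Subsingleton (CuspForm (Gamma0 p) 2) := by
  haveI : NeZero p := ⟨hp.out.ne_zero⟩
  haveI := Fermat.Agent.ProgramR.ES.finiteDimensional_cuspForm p
  have hfin : Module.finrank ℂ (CuspForm (Gamma0 p) 2) = 0 := by
    have h20 := Fermat.Agent.S20.result p
    have h2 := hp.out.two_le
    have hp' := hp.out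
    interval_cases p
    · rw [genusFormula_two] at h20; exact_mod_cast h20
    · rw [genusFormula_three] at h20; exact_mod_cast h20
    · exact absurd hp' (by decide)
  exact Module.finrank_zero_iff.mp hfin

end Fermat.Agent.S16lib.Red16
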